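/-
Programme T1B (row 38 via S44), brick E-SIDE44 / E44-C (helper46): THE APPROXIMATE CHARACTER.

Model curve `Wab a b : Y² = X³ + aX² + bX` (earlier team's `S05` library) over a valued field `(K, v)`
with `v 2 = 1`, `a = α²`, `v α = 1`, `v b < 1` (multiplicative reduction, node at `(0,0)`, tangents
`y = ± α x`).  On `E₀ = {O} ∪ {v x ≥ 1}` (the points with nonsingular reduction) put

  `uc α P = (y - α x) / (y + α x)`   (`= (s - α)/(s + α)`, `s = y/x`),   `uc α O = 1`.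

For `b = 0` this is the isomorphism of the nodal cubic with `𝔾_m`.  Here:
* `uc_add`   : `E₀` is closed under addition and `v (uc (P + Q) - uc P * uc Q) ≤ v b`;
* `uc_neg`   : `uc (-P) * uc P = 1`;
* `uc_nsmul` : `v (uc (n • P) - uc P ^ n) ≤ v b`;
* `val_uc`   : `v (uc P) = 1`;   `inE1_iff_uc` : for `P ∈ E₀`, `P ∈ E₁ ↔ v (uc P - 1) < 1`.
No Tate curve, no formal group law: everything comes from the exact addition formula `S05.add_xs`
  `s₃ (s₁ + s₂) = s₁ s₂ + a + b/x₁ + b/x₂ + (s₁ + s₂)² b / (x₁ x₂ - b)`.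
-/
import Fermat.Agent.S05.Formulas

set_option autoImplicit false
set_option linter.unusedSectionVars false
set_option linter.unusedVariables false

namespace Fermat.Agent.T1B.ESide46

open WeierstrassCurve WeierstrassCurve.Affine Fermat.Agent.S05

variable {K : Type*} [Field K] [DecidableEq K] {a b : K}

/-- The approximate character. -/
def uc (α : K) : (Wab a b).toAffine.Point → K
  | .zero => 1
  | .some x y _ => (y - α * x) / (y + α * x)

@[simp] lemma uc_zero (α : K) : uc α (0 : (Wab a b).toAffine.Point) = 1 := rfl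

lemma uc_some (α : K) {x y : K} (h : (Wab a b).toAffine.Nonsingular x y) :
    uc α (Point.some x y h) = (y - α * x) / (y + α * x) := rfl

lemma uc_xs (α : K) {x s : K} (h : (Wab a b).toAffine.Nonsingular x (x * s)) (hx : x ≠ 0) :
    uc α (Point.some x (x * s) h) = (s - α) / (s + α) := by
  rw [uc_some]
  have e1 : x * s - α * x = x * (s - α) := by ring
  have e2 : x * s + α * x = x * (s + α) := by ring
  rw [e1, e2, mul_div_mul_left _ _ hx]

/-! ### Pure algebra -/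

/-- The defect of the `b = 0` addition law `s₃ = (s₁ s₂ + a)/(s₁ + s₂)`. -/
def defect (b x₁ s₁ x₂ s₂ : K) : K :=
  b / x₁ + b / x₂ + (s₁ + s₂) ^ 2 * b / (x₁ * x₂ - b)

lemma addSs_mul {x₁ s₁ x₂ s₂ : K} (hS : s₁ + s₂ ≠ 0) :
    addSs a b x₁ s₁ x₂ s₂ * (s₁ + s₂) = s₁ * s₂ + a + defect b x₁ s₁ x₂ s₂ := by
  unfold addSs defect
  field_simp
  ring

/-- `u₃ - u₁ u₂ = 2 α D / ((s₁+α)(s₂+α)(s₃+α))`. -/
lemma u_sub_mul {α s₁ s₂ s₃ D : K} (h₁ : s₁ + α ≠ 0) (h₂ : s₂ + α ≠ 0) (h₃ : s₃ + α ≠ 0)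
    (key : s₃ * (s₁ + s₂) = s₁ * s₂ + α ^ 2 + D) :
    (s₃ - α) / (s₃ + α) - (s₁ - α) / (s₁ + α) * ((s₂ - α) / (s₂ + α)) =
      2 * α * D / ((s₁ + α) * (s₂ + α) * (s₃ + α)) := by
  rw [div_mul_div_comm, div_sub_div _ _ h₃ (mul_ne_zero h₁ h₂), div_eq_div_iff
    (mul_ne_zero h₃ (mul_ne_zero h₁ h₂)) (mul_ne_zero (mul_ne_zero h₁ h₂) h₃)]
  linear_combination (2 * α * ((s₁ + α) * (s₂ + α) * (s₃ + α))) * key

lemma u_sub_one {α s : K} (n₁ : s + α ≠ 0) : (s - α) / (s + α) - 1 = -(2 * α) / (s + α) := by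
  field_simp
  ring

lemma u_neg_mul {α s : K} (n₁ : s + α ≠ 0) (n₂ : s - α ≠ 0) :
    (-s - α) / (-s + α) * ((s - α) / (s + α)) = 1 := by
  have n₃ : -s + α ≠ 0 := by
    intro h0; apply n₂; linear_combination -h0
  field_simp
  ring

/-! ### Valuations -/

section Val

variable {Γ₀ : Type*} [LinearOrderedCommGroupWithZero Γ₀] (v : Valuation K Γ₀)

/-- Multiplicative reduction with node at `(0,0)` and rational tangents `y = ± α x`. -/
structure MultRed (v : Valuation K Γ₀) (a b α : K) : Prop where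
  h2 : v 2 = 1
  hα : α ^ 2 = a
  hαv : v α = 1
  hb : v b < 1
  hb0 : b ≠ 0

variable {v} {α : K}

lemma MultRed.ha (H : MultRed v a b α) : v a = 1 := by
  rw [← H.hα, map_pow, H.hαv, one_pow]

lemma ne_zero_of_one_le {x : K} (hx : 1 ≤ v x) : x ≠ 0 := by
  rintro rfl
  rw [map_zero] at hx
  exact absurd hx (not_le.mpr zero_lt_one)

/-- The basic valuation facts for a point of `E₀` in `(x, s)`-coordinates. -/
lemma val_facts (H : MultRed v a b α) {x s : K}
    (h : (Wab a b).toAffine.Nonsingular x (x * s)) (hx : 1 ≤ v x) :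
    v (s + α) = v (s - α) ∧ v (s + α) ^ 2 = v x ∧ 1 ≤ v (s + α) ∧ v s ≤ v (s + α) := by
  have hx0 : x ≠ 0 := ne_zero_of_one_le hx
  have hxpos : 0 < v x := lt_of_lt_of_le zero_lt_one hx
  have es := s_sq h hx0
  have hAB : (s + α) * (s - α) = x + b / x := by
    have : (s + α) * (s - α) = s ^ 2 - α ^ 2 := by ring
    rw [this, es, H.hα]; ring
  have hbx : v (b / x) < v x := by
    rw [map_div₀]
    calc v b / v x ≤ v b := by
          rw [div_le_iff₀ hxpos]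
          calc v b = v b * 1 := (mul_one _).symm
            _ ≤ v b * v x := by gcongr
      _ < 1 := H.hb
      _ ≤ v x := hx
  have hvAB : v (s + α) * v (s - α) = v x := by
    rw [← map_mul, hAB, v.map_add_eq_of_lt_left hbx]
  have hdiff : v ((s + α) - (s - α)) = 1 := by
    have : (s + α) - (s - α) = 2 * α := by ring
    rw [this, map_mul, H.h2, H.hαv, one_mul]
  have heq : v (s + α) = v (s - α) := by
    rcases lt_trichotomy (v (s + α)) (v (s - α)) with hlt | heq | hgt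
    · exfalso
      have h1 : v ((s - α) - (s + α)) = v (s - α) := v.map_sub_eq_of_lt_left hlt
      have h2 : v ((s - α) - (s + α)) = 1 := by
        rw [← Valuation.map_neg, neg_sub]; exact hdiff
      rw [h2] at h1
      rw [← h1, mul_one] at hvAB
      rw [← h1] at hlt
      rw [hvAB] at hlt
      exact absurd hx (not_le.mpr hlt)
    · exact heq
    · exfalso
      have h1 : v ((s + α) - (s - α)) = v (s + α) := v.map_sub_eq_of_lt_left hgt
      rw [hdiff] at h1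
      rw [← h1, one_mul] at hvAB
      rw [← h1, hvAB] at hgt
      exact absurd hx (not_le.mpr hgt)
  have hsq : v (s + α) ^ 2 = v x := by rw [sq, ← hvAB, ← heq]
  have h1le : 1 ≤ v (s + α) := by
    by_contra hlt
    rw [not_le] at hlt
    have : v (s + α) ^ 2 < 1 := pow_lt_one₀ zero_le hlt (by norm_num)
    rw [hsq] at this
    exact absurd hx (not_le.mpr this)
  refine ⟨heq, hsq, h1le, ?_⟩
  have h2s : v s = v (2 * s) := by rw [map_mul, H.h2, one_mul]
  have : 2 * s = (s + α) + (s - α) := by ring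
  rw [h2s, this]
  exact (v.map_add _ _).trans (max_le le_rfl heq.symm.le)

lemma div_le_self_of_one_le {c d : Γ₀} (hd : 1 ≤ d) : c / d ≤ c := by
  have hdpos : 0 < d := lt_of_lt_of_le zero_lt_one hd
  rw [div_le_iff₀ hdpos]
  calc c = c * 1 := (mul_one _).symm
    _ ≤ c * d := by gcongr

/-- **Approximate multiplicativity**, `(x, s)`-form. -/
theorem uc_add_xs (H : MultRed v a b α) {x₁ s₁ x₂ s₂ : K}
    (h₁ : (Wab a b).toAffine.Nonsingular x₁ (x₁ * s₁))
    (h₂ : (Wab a b).toAffine.Nonsingular x₂ (x₂ * s₂)) (hx₁ : 1 ≤ v x₁) (hx₂ : 1 ≤ v x₂)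
    (hS : s₁ + s₂ ≠ 0) :
    ∃ h₃ : (Wab a b).toAffine.Nonsingular (addXs b x₁ s₁ x₂ s₂)
        (addXs b x₁ s₁ x₂ s₂ * addSs a b x₁ s₁ x₂ s₂),
      Point.some _ _ h₁ + Point.some _ _ h₂ = Point.some _ _ h₃ ∧
      1 ≤ v (addXs b x₁ s₁ x₂ s₂) ∧
      v (uc α (Point.some _ _ h₃) - uc α (Point.some _ _ h₁) * uc α (Point.some _ _ h₂)) ≤ v b := by
  have hx₁0 : x₁ ≠ 0 := ne_zero_of_one_le hx₁
  have hx₂0 : x₂ ≠ 0 := ne_zero_of_one_le hx₂
  obtain ⟨e₁, q₁, r₁, t₁⟩ := val_facts H h₁ hx₁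
  obtain ⟨e₂, q₂, r₂, t₂⟩ := val_facts H h₂ hx₂
  have hx12 : 1 ≤ v (x₁ * x₂) := by rw [map_mul]; exact one_le_mul_of_one_le_of_one_le hx₁ hx₂
  have hb12 : v b < v (x₁ * x₂) := lt_of_lt_of_le H.hb hx12
  have hb' : x₁ * x₂ ≠ b := by
    intro h; rw [h] at hb12; exact lt_irrefl _ hb12
  have hvsub : v (x₁ * x₂ - b) = v (x₁ * x₂) := v.map_sub_eq_of_lt_left hb12
  obtain ⟨h₃, e₃⟩ := add_xs h₁ h₂ hx₁0 hx₂0 hS hb'
  -- `v S ≤ r₁ r₂`
  have hSpos : 0 < v (s₁ + s₂) := by rw [Valuation.pos_iff]; exact hS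
  have hSle : v (s₁ + s₂) ≤ v (s₁ + α) * v (s₂ + α) := by
    refine (v.map_add _ _).trans (max_le ?_ ?_)
    · calc v s₁ ≤ v (s₁ + α) := t₁
        _ = v (s₁ + α) * 1 := (mul_one _).symm
        _ ≤ v (s₁ + α) * v (s₂ + α) := by gcongr
    · calc v s₂ ≤ v (s₂ + α) := t₂
        _ = 1 * v (s₂ + α) := (one_mul _).symm
        _ ≤ v (s₁ + α) * v (s₂ + α) := by gcongr
  have hS2 : v (s₁ + s₂) ^ 2 ≤ v (x₁ * x₂) := by
    rw [map_mul, ← q₁, ← q₂, ← mul_pow]
    exact pow_le_pow_left₀ zero_le hSle 2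
  -- `1 ≤ v x₃`
  have hx₃ : 1 ≤ v (addXs b x₁ s₁ x₂ s₂) := by
    unfold addXs
    rw [map_div₀, map_pow, hvsub, map_mul v (x₁ * x₂) ((s₁ + s₂) ^ 2), map_pow, sq (v (x₁ * x₂)),
      mul_div_mul_left _ _ (ne_of_gt (lt_of_lt_of_le zero_lt_one hx12)),
      one_le_div₀ (pow_pos hSpos 2)]
    exact hS2
  refine ⟨h₃, e₃, hx₃, ?_⟩
  obtain ⟨e₃', q₃, r₃, t₃⟩ := val_facts H h₃ hx₃
  have hx₃0 : addXs b x₁ s₁ x₂ s₂ ≠ 0 := ne_zero_of_one_le hx₃
  have n₁ : s₁ + α ≠ 0 := by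
    intro h; rw [h, map_zero] at r₁; exact absurd r₁ (not_le.mpr zero_lt_one)
  have n₂ : s₂ + α ≠ 0 := by
    intro h; rw [h, map_zero] at r₂; exact absurd r₂ (not_le.mpr zero_lt_one)
  have n₃ : addSs a b x₁ s₁ x₂ s₂ + α ≠ 0 := by
    intro h; rw [h, map_zero] at r₃; exact absurd r₃ (not_le.mpr zero_lt_one)
  rw [uc_xs α h₃ hx₃0, uc_xs α h₁ hx₁0, uc_xs α h₂ hx₂0]
  have key : addSs a b x₁ s₁ x₂ s₂ * (s₁ + s₂) = s₁ * s₂ + α ^ 2 + defect b x₁ s₁ x₂ s₂ := by
    rw [addSs_mul hS, H.hα]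
  rw [u_sub_mul n₁ n₂ n₃ key]
  -- valuation of the defect
  have hD : v (defect b x₁ s₁ x₂ s₂) ≤ v b := by
    unfold defect
    refine (v.map_add _ _).trans (max_le ((v.map_add _ _).trans (max_le ?_ ?_)) ?_)
    · rw [map_div₀]; exact div_le_self_of_one_le hx₁
    · rw [map_div₀]; exact div_le_self_of_one_le hx₂
    · rw [map_div₀, map_mul, map_pow, hvsub]
      have hpos : 0 < v (x₁ * x₂) := lt_of_lt_of_le zero_lt_one hx12
      rw [div_le_iff₀ hpos]
      calc v (s₁ + s₂) ^ 2 * v b ≤ v (x₁ * x₂) * v b := by gcongr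
        _ = v b * v (x₁ * x₂) := mul_comm _ _
  rw [map_div₀, map_mul, map_mul, H.h2, H.hαv, one_mul, one_mul, map_mul, map_mul]
  have hden : 1 ≤ v (s₁ + α) * v (s₂ + α) * v (addSs a b x₁ s₁ x₂ s₂ + α) :=
    one_le_mul_of_one_le_of_one_le (one_le_mul_of_one_le_of_one_le r₁ r₂) r₃
  exact (div_le_self_of_one_le hden).trans hD

/-- `uc` takes unit values on `E₀`. -/
theorem val_uc (H : MultRed v a b α) {P : (Wab a b).toAffine.Point} (hP : InE0 v P) :
    v (uc α P) = 1 := by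
  rcases P with _ | ⟨x, y, h⟩
  · show v (1 : K) = 1
    exact map_one v
  · have hx : 1 ≤ v x := hP
    have hx0 : x ≠ 0 := ne_zero_of_one_le hx
    obtain ⟨h', e⟩ := some_eq_xs h hx0
    rw [e, uc_xs α h' hx0]
    obtain ⟨e₁, q₁, r₁, t₁⟩ := val_facts H h' hx
    rw [map_div₀, ← e₁, div_self (ne_of_gt (lt_of_lt_of_le zero_lt_one r₁))]

/-- `uc (-P) * uc P = 1` on `E₀`. -/
theorem uc_neg_mul (H : MultRed v a b α) {P : (Wab a b).toAffine.Point} (hP : InE0 v P) :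
    uc α (-P) * uc α P = 1 := by
  rcases P with _ | ⟨x, y, h⟩
  · show uc α (-(0 : (Wab a b).toAffine.Point)) * uc α (0 : (Wab a b).toAffine.Point) = 1
    rw [neg_zero, uc_zero, one_mul]
  · have hx : 1 ≤ v x := hP
    have hx0 : x ≠ 0 := ne_zero_of_one_le hx
    obtain ⟨h', e⟩ := some_eq_xs h hx0
    obtain ⟨e₁, q₁, r₁, t₁⟩ := val_facts H h' hx
    have n₁ : y / x + α ≠ 0 := by
      intro h0; rw [h0, map_zero] at r₁; exact absurd r₁ (not_le.mpr zero_lt_one)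
    have n₂ : y / x - α ≠ 0 := by
      intro h0; rw [e₁, h0, map_zero] at r₁; exact absurd r₁ (not_le.mpr zero_lt_one)
    rw [e]
    obtain ⟨hn, en⟩ := neg_xs h'
    rw [en, uc_xs α hn hx0, uc_xs α h' hx0]
    exact u_neg_mul n₁ n₂

lemma inE0_neg {P : (Wab a b).toAffine.Point} (hP : InE0 v P) : InE0 v (-P) := by
  rcases P with _ | ⟨x, y, h⟩
  · exact hP
  · rw [Point.neg_some]; exact hP

/-- **Approximate multiplicativity on `E₀`**; in particular `E₀` is closed under addition. -/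
theorem uc_add (H : MultRed v a b α) {P Q : (Wab a b).toAffine.Point} (hP : InE0 v P)
    (hQ : InE0 v Q) :
    InE0 v (P + Q) ∧ v (uc α (P + Q) - uc α P * uc α Q) ≤ v b := by
  rcases P with _ | ⟨x₁, y₁, h₁⟩
  · have : (Point.zero : (Wab a b).toAffine.Point) = 0 := rfl
    rw [this, zero_add, uc_zero, one_mul, sub_self, map_zero]
    exact ⟨hQ, zero_le⟩
  rcases Q with _ | ⟨x₂, y₂, h₂⟩
  · have : (Point.zero : (Wab a b).toAffine.Point) = 0 := rfl
    rw [this, add_zero, uc_zero, mul_one, sub_self, map_zero]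
    exact ⟨hP, zero_le⟩
  have hx₁ : 1 ≤ v x₁ := hP
  have hx₂ : 1 ≤ v x₂ := hQ
  have hx₁0 : x₁ ≠ 0 := ne_zero_of_one_le hx₁
  have hx₂0 : x₂ ≠ 0 := ne_zero_of_one_le hx₂
  obtain ⟨h₁', e₁⟩ := some_eq_xs h₁ hx₁0
  obtain ⟨h₂', e₂⟩ := some_eq_xs h₂ hx₂0
  rw [e₁, e₂]
  by_cases hS : y₁ / x₁ + y₂ / x₂ = 0
  · rcases add_xs_of_S_eq_zero H.hb0 h₁' h₂' hx₁0 hx₂0 hS with ⟨hxx, hsum⟩ | ⟨hbb, -⟩
    · rw [hsum]
      refine ⟨trivial, ?_⟩
      have hneg : Point.some _ _ h₂' = -Point.some _ _ h₁' := by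
        rw [eq_neg_iff_add_eq_zero, add_comm]; exact hsum
      have hP' : InE0 v (Point.some _ _ h₁') := hx₁
      rw [hneg, uc_zero, mul_comm, uc_neg_mul H hP', sub_self, map_zero]
      exact zero_le
    · exfalso
      have h1 : 1 ≤ v (x₁ * x₂) := by
        rw [map_mul]; exact one_le_mul_of_one_le_of_one_le hx₁ hx₂
      rw [hbb] at h1
      exact absurd h1 (not_le.mpr H.hb)
  · obtain ⟨h₃, e₃, hx₃, hv⟩ := uc_add_xs H h₁' h₂' hx₁ hx₂ hS
    rw [e₃]
    exact ⟨hx₃, hv⟩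

/-- Multiples: `n • P ∈ E₀` and `v (uc (n • P) - uc P ^ n) ≤ v b`. -/
theorem uc_nsmul (H : MultRed v a b α) {P : (Wab a b).toAffine.Point} (hP : InE0 v P) (n : ℕ) :
    InE0 v (n • P) ∧ v (uc α (n • P) - uc α P ^ n) ≤ v b := by
  induction n with
  | zero =>
    rw [zero_smul, pow_zero, uc_zero, sub_self, map_zero]
    exact ⟨trivial, zero_le⟩
  | succ n ih =>
    obtain ⟨ih₁, ih₂⟩ := ih
    obtain ⟨h₁, h₂⟩ := uc_add H ih₁ hP
    rw [succ_nsmul]
    refine ⟨h₁, ?_⟩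
    have e : uc α (n • P + P) - uc α P ^ (n + 1) =
        (uc α (n • P + P) - uc α (n • P) * uc α P) + (uc α (n • P) - uc α P ^ n) * uc α P := by
      ring
    rw [e]
    refine (v.map_add _ _).trans (max_le h₂ ?_)
    rw [map_mul, val_uc H hP, mul_one]
    exact ih₂

/-- For `P ∈ E₀`: `P ∈ E₁ ↔ uc P ≡ 1`. -/
theorem inE1_iff_uc (H : MultRed v a b α) {P : (Wab a b).toAffine.Point} (hP : InE0 v P) :
    InE1 v P ↔ v (uc α P - 1) < 1 := by
  rcases P with _ | ⟨x, y, h⟩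
  · have : (Point.zero : (Wab a b).toAffine.Point) = 0 := rfl
    rw [this, uc_zero, sub_self, map_zero]
    exact ⟨fun _ => zero_lt_one, fun _ => trivial⟩
  · have hx : 1 ≤ v x := hP
    have hx0 : x ≠ 0 := ne_zero_of_one_le hx
    obtain ⟨h', e⟩ := some_eq_xs h hx0
    obtain ⟨e₁, q₁, r₁, t₁⟩ := val_facts H h' hx
    have n₁ : y / x + α ≠ 0 := by
      intro h0; rw [h0, map_zero] at r₁; exact absurd r₁ (not_le.mpr zero_lt_one)
    have hpos : 0 < v (y / x + α) := lt_of_lt_of_le zero_lt_one r₁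
    have hu : uc α (Point.some x y h) - 1 = -(2 * α) / (y / x + α) := by
      rw [e, uc_xs α h' hx0]
      exact u_sub_one n₁
    rw [hu, map_div₀, Valuation.map_neg, map_mul, H.h2, H.hαv, one_mul, div_lt_one₀ hpos]
    show 1 < v x ↔ 1 < v (y / x + α)
    rw [← q₁]
    constructor
    · intro h1
      by_contra h2
      rw [not_lt] at h2
      have : v (y / x + α) ^ 2 ≤ 1 := pow_le_one₀ zero_le h2
      exact absurd h1 (not_lt.mpr this)
    · intro h1
      exact one_lt_pow₀ h1 (by norm_num)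

/-- For `P ∈ E₁`, `P ≠ 0`: `v (uc P - 1) * v (y / x) = 1` (so `v (uc P - 1) = v (-x / y)`). -/
theorem val_uc_sub_one (H : MultRed v a b α) {x y : K} (h : (Wab a b).toAffine.Nonsingular x y)
    (hx : 1 < v x) : v (uc α (Point.some x y h) - 1) = v (-x / y) := by
  have hx0 : x ≠ 0 := ne_zero_of_one_le hx.le
  obtain ⟨h', e⟩ := some_eq_xs h hx0
  obtain ⟨e₁, q₁, r₁, t₁⟩ := val_facts H h' hx.le
  have n₁ : y / x + α ≠ 0 := by
    intro h0; rw [h0, map_zero] at r₁; exact absurd r₁ (not_le.mpr zero_lt_one)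
  have hu : uc α (Point.some x y h) - 1 = -(2 * α) / (y / x + α) := by
    rw [e, uc_xs α h' hx0]
    exact u_sub_one n₁
  have hr : 1 < v (y / x + α) := by
    by_contra h2
    rw [not_lt] at h2
    have : v (y / x + α) ^ 2 ≤ 1 := pow_le_one₀ zero_le h2
    rw [q₁] at this
    exact absurd hx (not_lt.mpr this)
  -- `v (y/x) = v (y/x + α)` since `v α = 1 < v (y/x + α)`
  have hs : v (y / x) = v (y / x + α) := by
    have : y / x = (y / x + α) - α := by ring
    rw [this, v.map_sub_eq_of_lt_left (by rw [H.hαv]; exact hr)]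
    congr 1; ring
  have hy0 : y ≠ 0 := by
    intro hy
    have h0 : v (y / x) = 0 := by rw [hy, zero_div, map_zero]
    rw [← hs, h0] at hr
    exact absurd hr (not_lt.mpr zero_le)
  rw [hu, map_div₀, Valuation.map_neg, map_mul, H.h2, H.hαv, one_mul, ← hs]
  rw [map_div₀, map_div₀, Valuation.map_neg, one_div, inv_div]

end Val

end Fermat.Agent.T1B.ESide46
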