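/-
Programme T1B (row 38 via S44), brick E-SIDE44 / E44-D (helper46): the approximate character on a
branch of the node annulus.

`Q = (x₁, x₁ s₁)` on the `α`-branch (`v b < v x₁ < 1`, `s₁ ≡ α`), in the outer half of the annulus
(`v b < v x₁ ^ 2`), and `c = (x₂, x₂ s₂) ∈ E₁` (`1 < v x₂`).  Then `Q + c` is on the `α`-branch at the
same radius, `v (uc Q) = v x₁`, and

  `v (uc (Q + c) - uc Q * uc c) * (v x₁ * v s₂) ≤ v b`.

In particular (`uc_add_branch_lt`) if `v b ≤ v x₁ ^ 2 * ε` then `v (uc (Q + c) - uc Q * uc c) < v (uc Q) * ε`.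
-/
import Fermat.Agent.T1B.ESide46.ApproxChar
import Fermat.Agent.S05.CompH3

set_option autoImplicit false
set_option linter.unusedSectionVars false
set_option linter.unusedVariables false

namespace Fermat.Agent.T1B.ESide46

open WeierstrassCurve WeierstrassCurve.Affine Fermat.Agent.S05 Fermat.Agent.S05.CompH3

variable {K : Type*} [Field K] [DecidableEq K] {a b α : K}
variable {Γ₀ : Type*} [LinearOrderedCommGroupWithZero Γ₀] {v : Valuation K Γ₀}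

/-- Valuation facts on the outer half of the `α`-branch. -/
lemma alpha_facts (H : MultRed v a b α) {x s : K}
    (h : (Wab a b).toAffine.Nonsingular x (x * s)) (hA : IsAlpha v b α x s)
    (hdeep : v b < v x ^ 2) :
    x ≠ 0 ∧ v (s + α) = 1 ∧ v (s - α) = v x ∧ v s = 1 := by
  obtain ⟨hbx, hx1, hsα⟩ := hA
  have hxpos : 0 < v x := lt_of_le_of_lt zero_le hbx
  have hx0 : x ≠ 0 := by
    rintro rfl; rw [map_zero] at hxpos; exact lt_irrefl _ hxpos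
  have h2α : v (2 * α) = 1 := by rw [map_mul, H.h2, H.hαv, one_mul]
  have hplus : v (s + α) = 1 := by
    have e : s + α = 2 * α + (s - α) := by ring
    rw [e, v.map_add_eq_of_lt_left (by rw [h2α]; exact hsα), h2α]
  have es := s_sq h hx0
  have hAB : (s - α) * (s + α) = x + b / x := by
    have : (s - α) * (s + α) = s ^ 2 - α ^ 2 := by ring
    rw [this, es, H.hα]; ring
  have hbx' : v (b / x) < v x := by
    rw [map_div₀, div_lt_iff₀ hxpos, ← sq]; exact hdeep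
  have hminus : v (s - α) = v x := by
    have := congrArg v hAB
    rw [map_mul, hplus, mul_one, v.map_add_eq_of_lt_left hbx'] at this
    exact this
  refine ⟨hx0, hplus, hminus, ?_⟩
  exact IsAlpha.v_s H.hαv ⟨hbx, hx1, hsα⟩

/-- **Approximate multiplicativity, branch + `E₁`.** -/
theorem uc_add_branch (H : MultRed v a b α) {x₁ s₁ x₂ s₂ : K}
    (h₁ : (Wab a b).toAffine.Nonsingular x₁ (x₁ * s₁))
    (h₂ : (Wab a b).toAffine.Nonsingular x₂ (x₂ * s₂))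
    (hA : IsAlpha v b α x₁ s₁) (hdeep : v b < v x₁ ^ 2) (hx₂ : 1 < v x₂) :
    ∃ h₃ : (Wab a b).toAffine.Nonsingular (addXs b x₁ s₁ x₂ s₂)
        (addXs b x₁ s₁ x₂ s₂ * addSs a b x₁ s₁ x₂ s₂),
      Point.some _ _ h₁ + Point.some _ _ h₂ = Point.some _ _ h₃ ∧
      v (addXs b x₁ s₁ x₂ s₂) = v x₁ ∧
      IsAlpha v b α (addXs b x₁ s₁ x₂ s₂) (addSs a b x₁ s₁ x₂ s₂) ∧
      v (uc α (Point.some _ _ h₁)) = v x₁ ∧
      v (uc α (Point.some _ _ h₃) - uc α (Point.some _ _ h₁) * uc α (Point.some _ _ h₂)) *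
        (v x₁ * v s₂) ≤ v b := by
  obtain ⟨hx₁0, p₁, m₁, vs₁⟩ := alpha_facts H h₁ hA hdeep
  obtain ⟨hbx, hx1, hsα⟩ := hA
  have hx₁pos : 0 < v x₁ := lt_of_le_of_lt zero_le hbx
  have hx₂0 : x₂ ≠ 0 := ne_zero_of_one_le hx₂.le
  obtain ⟨e₂, q₂, r₂, t₂⟩ := val_facts H h₂ hx₂.le
  -- `r₂ := v (s₂ + α) > 1` and `v s₂ = r₂`
  have hr₂ : 1 < v (s₂ + α) := by
    by_contra hle
    rw [not_lt] at hle
    have : v (s₂ + α) ^ 2 ≤ 1 := pow_le_one₀ zero_le hle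
    rw [q₂] at this
    exact absurd hx₂ (not_lt.mpr this)
  have vs₂ : v s₂ = v (s₂ + α) := by
    have e : s₂ = (s₂ + α) - α := by ring
    have h : v ((s₂ + α) - α) = v (s₂ + α) :=
      v.map_sub_eq_of_lt_left (by rw [H.hαv]; exact hr₂)
    rw [← h]; congr 1
  have hs₂pos : 0 < v s₂ := by rw [vs₂]; exact lt_trans zero_lt_one hr₂
  have hs₂sq : v s₂ ^ 2 = v x₂ := by rw [vs₂]; exact q₂
  -- `S`
  have vS : v (s₁ + s₂) = v s₂ := by
    rw [add_comm]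
    exact v.map_add_eq_of_lt_left (by rw [vs₁, vs₂]; exact hr₂)
  have hS : s₁ + s₂ ≠ 0 := by
    intro h0; rw [h0, map_zero] at vS; exact absurd vS.symm (ne_of_gt hs₂pos)
  -- `x₁ x₂ ≠ b`
  have hx12 : v x₁ < v (x₁ * x₂) := by
    rw [map_mul]
    calc v x₁ = v x₁ * 1 := (mul_one _).symm
      _ < v x₁ * v x₂ := by
        exact mul_lt_mul_of_pos_left hx₂ hx₁pos
  have hb12 : v b < v (x₁ * x₂) := lt_trans hbx hx12
  have hb' : x₁ * x₂ ≠ b := by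
    intro h; rw [h] at hb12; exact lt_irrefl _ hb12
  have hvsub : v (x₁ * x₂ - b) = v (x₁ * x₂) := v.map_sub_eq_of_lt_left hb12
  obtain ⟨h₃, e₃⟩ := add_xs h₁ h₂ hx₁0 hx₂0 hS hb'
  have hx12pos : 0 < v (x₁ * x₂) := lt_trans hx₁pos hx12
  -- `v x₃ = v x₁`
  have hx₃ : v (addXs b x₁ s₁ x₂ s₂) = v x₁ := by
    unfold addXs
    rw [map_div₀, map_pow, hvsub, map_mul v (x₁ * x₂) ((s₁ + s₂) ^ 2), map_pow, sq (v (x₁ * x₂)),
      mul_div_mul_left _ _ (ne_of_gt hx12pos), vS, hs₂sq, map_mul,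
      mul_div_assoc, div_self (ne_of_gt (lt_trans zero_lt_one hx₂)), mul_one]
  -- the defect
  have hD : v (defect b x₁ s₁ x₂ s₂) ≤ v b / v x₁ := by
    unfold defect
    refine (v.map_add _ _).trans (max_le ((v.map_add _ _).trans (max_le ?_ ?_)) ?_)
    · rw [map_div₀]
    · rw [map_div₀]
      calc v b / v x₂ ≤ v b := div_le_self_of_one_le hx₂.le
        _ ≤ v b / v x₁ := by
          rw [le_div_iff₀ hx₁pos]
          calc v b * v x₁ ≤ v b * 1 := by gcongr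
            _ = v b := mul_one _
    · rw [map_div₀, map_mul, map_pow, hvsub, vS, hs₂sq, map_mul]
      apply le_of_eq
      have hx₂pos : 0 < v x₂ := lt_trans zero_lt_one hx₂
      field_simp
  have key : addSs a b x₁ s₁ x₂ s₂ * (s₁ + s₂) = s₁ * s₂ + α ^ 2 + defect b x₁ s₁ x₂ s₂ := by
    rw [addSs_mul hS, H.hα]
  -- `s₃ - α`
  have hN : v ((s₁ - α) * (s₂ - α)) = v x₁ * v s₂ := by
    rw [map_mul, m₁, ← e₂, vs₂]
  have hDN : v (defect b x₁ s₁ x₂ s₂) < v ((s₁ - α) * (s₂ - α)) := by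
    rw [hN]
    refine lt_of_le_of_lt hD ?_
    rw [div_lt_iff₀ hx₁pos]
    calc v b < v x₁ ^ 2 := hdeep
      _ = v x₁ * 1 * v x₁ := by rw [mul_one, sq]
      _ < v x₁ * v s₂ * v x₁ := by
        have : (1 : Γ₀) < v s₂ := by rw [vs₂]; exact hr₂
        have h1 : v x₁ * 1 < v x₁ * v s₂ := mul_lt_mul_of_pos_left this hx₁pos
        exact mul_lt_mul_of_pos_right h1 hx₁pos
  have hs₃m : (addSs a b x₁ s₁ x₂ s₂ - α) * (s₁ + s₂) =
      (s₁ - α) * (s₂ - α) + defect b x₁ s₁ x₂ s₂ := by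
    linear_combination key
  have vs₃m : v (addSs a b x₁ s₁ x₂ s₂ - α) = v x₁ := by
    have := congrArg v hs₃m
    rw [map_mul, vS, v.map_add_eq_of_lt_left hDN, hN] at this
    exact mul_right_cancel₀ (ne_of_gt hs₂pos) this
  have hA₃ : IsAlpha v b α (addXs b x₁ s₁ x₂ s₂) (addSs a b x₁ s₁ x₂ s₂) :=
    ⟨by rw [hx₃]; exact hbx, by rw [hx₃]; exact hx1, by rw [vs₃m]; exact hx1⟩
  have h2α : v (2 * α) = 1 := by rw [map_mul, H.h2, H.hαv, one_mul]
  have p₃ : v (addSs a b x₁ s₁ x₂ s₂ + α) = 1 := by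
    have e : addSs a b x₁ s₁ x₂ s₂ + α = 2 * α + (addSs a b x₁ s₁ x₂ s₂ - α) := by ring
    rw [e, v.map_add_eq_of_lt_left (by rw [h2α, vs₃m]; exact hx1), h2α]
  have hx₃0 : addXs b x₁ s₁ x₂ s₂ ≠ 0 := by
    intro h0; rw [h0, map_zero] at hx₃; exact absurd hx₃.symm (ne_of_gt hx₁pos)
  have n₁ : s₁ + α ≠ 0 := by
    intro h0; rw [h0, map_zero] at p₁; exact zero_ne_one p₁
  have n₂ : s₂ + α ≠ 0 := by
    intro h0; rw [h0, map_zero] at hr₂; exact absurd hr₂ (not_lt.mpr zero_le)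
  have n₃ : addSs a b x₁ s₁ x₂ s₂ + α ≠ 0 := by
    intro h0; rw [h0, map_zero] at p₃; exact zero_ne_one p₃
  have hu₁ : v (uc α (Point.some _ _ h₁)) = v x₁ := by
    rw [uc_xs α h₁ hx₁0, map_div₀, m₁, p₁, div_one]
  refine ⟨h₃, e₃, hx₃, hA₃, hu₁, ?_⟩
  rw [uc_xs α h₃ hx₃0, uc_xs α h₁ hx₁0, uc_xs α h₂ hx₂0, u_sub_mul n₁ n₂ n₃ key]
  rw [map_div₀, map_mul, h2α, one_mul, map_mul, map_mul, p₁, p₃, one_mul, mul_one, ← vs₂]
  calc v (defect b x₁ s₁ x₂ s₂) / v s₂ * (v x₁ * v s₂)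
      = v (defect b x₁ s₁ x₂ s₂) * v x₁ := by
        field_simp
    _ ≤ v b / v x₁ * v x₁ := by gcongr
    _ = v b := div_mul_cancel₀ _ (ne_of_gt hx₁pos)

end Fermat.Agent.T1B.ESide46
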