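/-
Programme T1B (row 38 via S44), brick E-SIDE44 / E44-KEY (helper46).

* `inE1_nsmul`            : multiples of a point of `E₁` stay in `E₁`;
* `val_le_of_torsion`     : a nonzero `n`-torsion point `P` of `E₁` has `v n ≤ v (uc P - 1)` (no torsion near `O`);
* `val_pow_sub_pow_le`    : `v (t ^ k - ζ ^ k) ≤ v (t - ζ)` for `v t ≤ 1`, `v ζ ≤ 1`;
* **`key`**               : `Q` on the outer `α`-branch, `P₀ ∈ E₁`, `ζ` a `p`-th root of unity close to `uc P₀`
  (`v (uc P₀ - ζ) * v p ≤ v b`), `v b ≤ v x(Q) ^ 2 * v p`, `v b < v p ^ 2`.  Then for every `k` with `k • P₀ ≠ 0`: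
  `Q + k • P₀` is on the `α`-branch at the radius of `Q` and
      `v (uc (Q + k • P₀) - uc Q * ζ ^ k) < v x(Q) * v p`.
  Hence the Lagrange resolvent `∑ ζ^(-k) uc (Q + k • P₀)` has valuation exactly `v x(Q) * v p` (abstract
  resolvent lemma, helper9's `ESide9/Roots`).
-/
import Fermat.Agent.T1B.ESide46.Branch
import Fermat.Agent.S05.KernelContract

set_option autoImplicit false
set_option linter.unusedSectionVars false
set_option linter.unusedVariables false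

namespace Fermat.Agent.T1B.ESide46

open WeierstrassCurve WeierstrassCurve.Affine Fermat.Agent.S05 Fermat.Agent.S05.CompH3

variable {K : Type*} [Field K] [DecidableEq K] {a b α : K}
variable {Γ₀ : Type*} [LinearOrderedCommGroupWithZero Γ₀] {v : Valuation K Γ₀}

lemma MultRed.ha_le (H : MultRed v a b α) : v a ≤ 1 := le_of_eq H.ha
lemma MultRed.hb_le (H : MultRed v a b α) : v b ≤ 1 := le_of_lt H.hb

theorem inE1_nsmul (H : MultRed v a b α) {P : (Wab a b).toAffine.Point} (hP : InE1 v P) (n : ℕ) :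
    InE1 v (n • P) := by
  induction n with
  | zero => rw [zero_smul]; trivial
  | succ n ih =>
    rw [succ_nsmul]
    exact KernelContract.inE1_add v H.ha_le H.hb_le _ _ ih hP

/-- For a point of `E₁` in `(x, s)`-coordinates: `1 < v s` and `v s ^ 2 = v x`. -/
lemma one_lt_val_s (H : MultRed v a b α) {x s : K}
    (h : (Wab a b).toAffine.Nonsingular x (x * s)) (hx : 1 < v x) :
    1 < v s ∧ v s ^ 2 = v x := by
  obtain ⟨e, q, r, t⟩ := val_facts H h hx.le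
  have hr : 1 < v (s + α) := by
    by_contra hle
    rw [not_lt] at hle
    have : v (s + α) ^ 2 ≤ 1 := pow_le_one₀ zero_le hle
    rw [q] at this
    exact absurd hx (not_lt.mpr this)
  have vs : v s = v (s + α) := by
    have h' : v ((s + α) - α) = v (s + α) :=
      v.map_sub_eq_of_lt_left (by rw [H.hαv]; exact hr)
    rw [← h']; congr 1; ring
  rw [vs]
  exact ⟨hr, q⟩

/-- **No torsion near `O`.** -/
theorem val_le_of_torsion (H : MultRed v a b α) {P : (Wab a b).toAffine.Point} (hP : InE1 v P)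
    (hP0 : P ≠ 0) {n : ℕ} (hn : n • P = 0) : v (n : K) ≤ v (uc α P - 1) := by
  have hW := KernelContract.integralCoeffs_Wab v H.ha_le H.hb_le
  have hP' : Kernel.InE1 v P := (KernelContract.inE1_iff v P).mpr hP
  have hlt := hP'.zc_lt_one hW
  have hpos := hP'.zc_pos hW hP0
  obtain ⟨-, h₂⟩ := Kernel.nsmul_estimate hW hlt hP' le_rfl n
  rw [hn, Kernel.zc_zero, zero_sub, Valuation.map_neg, map_mul, sq] at h₂
  have h3 : v (n : K) ≤ v (Kernel.zc P) := le_of_mul_le_mul_right h₂ hpos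
  rcases P with _ | ⟨x, y, h⟩
  · exact absurd rfl hP0
  · have hx : 1 < v x := hP
    rw [val_uc_sub_one H h hx]
    exact h3

lemma val_pow_sub_pow_le {t ζ : K} (ht : v t ≤ 1) (hζ : v ζ ≤ 1) (k : ℕ) :
    v (t ^ k - ζ ^ k) ≤ v (t - ζ) := by
  rw [← geom_sum₂_mul, map_mul]
  have : v (∑ i ∈ Finset.range k, t ^ i * ζ ^ (k - 1 - i)) ≤ 1 := by
    apply Valuation.map_sum_le
    intro i _
    rw [map_mul, map_pow, map_pow]
    exact mul_le_one' (pow_le_one₀ zero_le ht) (pow_le_one₀ zero_le hζ)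
  calc v (∑ i ∈ Finset.range k, t ^ i * ζ ^ (k - 1 - i)) * v (t - ζ) ≤ 1 * v (t - ζ) := by gcongr
    _ = v (t - ζ) := one_mul _

/-- **KEY estimate.** -/
theorem key (H : MultRed v a b α) {p : ℕ} (hp0 : 0 < v (p : K)) (hp1 : v (p : K) < 1)
    {x₁ s₁ : K} (h₁ : (Wab a b).toAffine.Nonsingular x₁ (x₁ * s₁)) (hA : IsAlpha v b α x₁ s₁)
    (hb4 : v b ≤ v x₁ ^ 2 * v (p : K)) (hbp : v b < v (p : K) ^ 2)
    {P₀ : (Wab a b).toAffine.Point} (hP₀ : InE1 v P₀)
    {ζ : K} (hζ1 : v ζ = 1) (hζ : v (uc α P₀ - ζ) * v (p : K) ≤ v b)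
    (k : ℕ) (hk : k • P₀ ≠ 0) :
    ∃ (x₃ s₃ : K) (h₃ : (Wab a b).toAffine.Nonsingular x₃ (x₃ * s₃)),
      Point.some _ _ h₁ + k • P₀ = Point.some _ _ h₃ ∧ IsAlpha v b α x₃ s₃ ∧ v x₃ = v x₁ ∧
      v (uc α (Point.some _ _ h₁)) = v x₁ ∧
      v (uc α (Point.some _ _ h₃) - uc α (Point.some _ _ h₁) * ζ ^ k) < v x₁ * v (p : K) := by
  have hx₁pos : 0 < v x₁ := lt_of_le_of_lt zero_le hA.1
  have hdeep : v b < v x₁ ^ 2 := by
    refine lt_of_le_of_lt hb4 ?_
    calc v x₁ ^ 2 * v (p : K) < v x₁ ^ 2 * 1 :=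
          mul_lt_mul_of_pos_left hp1 (pow_pos hx₁pos 2)
      _ = v x₁ ^ 2 := mul_one _
  -- the point `c = k • P₀`
  have hc : InE1 v (k • P₀) := inE1_nsmul H hP₀ k
  obtain ⟨x₂, y₂, h₂, hc2⟩ : ∃ (x₂ y₂ : K) (h₂ : (Wab a b).toAffine.Nonsingular x₂ y₂),
      k • P₀ = Point.some x₂ y₂ h₂ := by
    rcases hq : k • P₀ with _ | ⟨x, y, h⟩
    · exact absurd hq hk
    · exact ⟨x, y, h, rfl⟩
  have hx₂ : 1 < v x₂ := by rw [hc2] at hc; exact hc
  have hx₂0 : x₂ ≠ 0 := ne_zero_of_one_le hx₂.le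
  obtain ⟨h₂', e₂⟩ := some_eq_xs h₂ hx₂0
  obtain ⟨h₃, e₃, hx₃, hA₃, hu₁, hE⟩ := uc_add_branch H h₁ h₂' hA hdeep hx₂
  obtain ⟨hs₂, -⟩ := one_lt_val_s H h₂' hx₂
  refine ⟨_, _, h₃, by rw [hc2, e₂]; exact e₃, hA₃, hx₃, hu₁, ?_⟩
  -- `uc c = ζ ^ k + δ`
  have hP₀0 : InE0 v P₀ := hP₀.inE0
  obtain ⟨-, hn⟩ := uc_nsmul (α := α) H hP₀0 k
  have hu₀ : v (uc α P₀) = 1 := val_uc H hP₀0
  have hpow : v (uc α P₀ ^ k - ζ ^ k) ≤ v (uc α P₀ - ζ) :=
    val_pow_sub_pow_le hu₀.le hζ1.le k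
  have hζ' : v (uc α P₀ - ζ) ≤ v b / v (p : K) := by
    rw [le_div_iff₀ hp0]; exact hζ
  have hbbp : v b ≤ v b / v (p : K) := by
    rw [le_div_iff₀ hp0]
    calc v b * v (p : K) ≤ v b * 1 := by gcongr
      _ = v b := mul_one _
  have hδ : v (uc α (Point.some _ _ h₂') - ζ ^ k) ≤ v b / v (p : K) := by
    have e : uc α (Point.some _ _ h₂') - ζ ^ k =
        (uc α (k • P₀) - uc α P₀ ^ k) + (uc α P₀ ^ k - ζ ^ k) := by
      rw [hc2, e₂]; ring
    rw [e]
    exact (v.map_add _ _).trans (max_le (hn.trans hbbp) (hpow.trans hζ'))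
  -- total
  have e : uc α (Point.some _ _ h₃) - uc α (Point.some _ _ h₁) * ζ ^ k =
      (uc α (Point.some _ _ h₃) - uc α (Point.some _ _ h₁) * uc α (Point.some _ _ h₂')) +
        uc α (Point.some _ _ h₁) * (uc α (Point.some _ _ h₂') - ζ ^ k) := by ring
  rw [e]
  refine lt_of_le_of_lt (v.map_add _ _) (max_lt ?_ ?_)
  · -- first term
    set E := v (uc α (Point.some _ _ h₃) - uc α (Point.some _ _ h₁) * uc α (Point.some _ _ h₂'))
      with hEdef
    by_cases hE0 : E = 0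
    · rw [hE0]; exact mul_pos hx₁pos hp0
    · have hEpos : 0 < E := lt_of_le_of_ne zero_le (Ne.symm hE0)
      have h1 : E * v x₁ < E * (v x₁ * v (y₂ / x₂)) := by
        apply mul_lt_mul_of_pos_left _ hEpos
        calc v x₁ = v x₁ * 1 := (mul_one _).symm
          _ < v x₁ * v (y₂ / x₂) := mul_lt_mul_of_pos_left hs₂ hx₁pos
      have h2 : E * v x₁ < v x₁ ^ 2 * v (p : K) := lt_of_lt_of_le h1 (hE.trans hb4)
      have h3 : E * v x₁ < (v x₁ * v (p : K)) * v x₁ := by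
        rw [sq] at h2
        calc E * v x₁ < v x₁ * v x₁ * v (p : K) := h2
          _ = (v x₁ * v (p : K)) * v x₁ := mul_right_comm _ _ _
      exact lt_of_mul_lt_mul_right h3 zero_le
  · -- second term
    rw [map_mul, hu₁]
    apply mul_lt_mul_of_pos_left _ hx₁pos
    refine lt_of_le_of_lt hδ ?_
    rw [div_lt_iff₀ hp0, ← sq]
    exact hbp

end Fermat.Agent.T1B.ESide46
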