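/-
Programme T1B (row 38 via S44), brick E-SIDE44 / E44-CS (helper46): THE STRUCTURE OF `C = E[p] ∩ E₁`
on the model curve `Wab a b` with multiplicative reduction, residue characteristic `p`.

`MultRed v a b α`, `0 < v p < 1`, `v b < v p ^ 2`, `z₀` a primitive `p`-th root of unity.  Via the approximate
character `uc` (`ApproxChar.lean`) every `c ∈ C` has a UNIQUE closest `p`-th root of unity `κ(c)`:
`v (uc c - κ(c)) * v p ≤ v b`, and

* `exists_root`      : existence of `κ(c)` (helper9's `closest_root`);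
* `root_unique`      : uniqueness;
* `eq_of_root`       : `κ` is injective (no torsion near `O`, `Key.val_le_of_torsion`);
* `root_add`         : `κ` is multiplicative;   `root_nsmul`;
* `root_ne_one`      : `κ(c) ≠ 1` for `c ≠ 0`;
* `val_uc_sub_one_eq`: `v (uc c - 1) = v (1 - z₀)` for `c ∈ C`, `c ≠ 0`; `val_z_eq`: `v (-x/y) = v (1 - z₀)`;
* `exists_nsmul_eq`  : `C` is generated by any of its nonzero elements;
* `uc_map`, `root_map` : equivariance in coordinates (`σ α = α`).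

No Lemma A/B (division polynomials) is needed on `Wab`.
-/
import Fermat.Agent.T1B.ESide46.Key
import Fermat.Agent.T1B.ESide9.Roots

set_option autoImplicit false
set_option linter.unusedSectionVars false
set_option linter.unusedVariables false

namespace Fermat.Agent.T1B.ESide46

open WeierstrassCurve WeierstrassCurve.Affine Fermat.Agent.S05 Fermat.Agent.T1B.ESide9

variable {K : Type*} [Field K] [DecidableEq K] {a b α : K}
variable {Γ₀ : Type*} [LinearOrderedCommGroupWithZero Γ₀] {v : Valuation K Γ₀}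
variable {p : ℕ} [hp : Fact p.Prime] {z₀ : K}

/-- `ζ` is a `p`-th root of unity close to `uc P`. -/
def IsRootOf (v : Valuation K Γ₀) (b α : K) (p : ℕ) (P : (Wab a b).toAffine.Point) (ζ : K) : Prop :=
  ζ ^ p = 1 ∧ v (uc α P - ζ) * v (p : K) ≤ v b

lemma isRootOf_zero (hb : v b < 1) : IsRootOf (a := a) v b α p 0 1 := by
  refine ⟨one_pow _, ?_⟩
  rw [uc_zero, sub_self, map_zero, zero_mul]
  exact zero_le

/-- bound in the form `v (uc P - ζ) ≤ v b / v p`. -/
lemma IsRootOf.le_div (hp0 : 0 < v (p : K)) {P : (Wab a b).toAffine.Point} {ζ : K}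
    (h : IsRootOf v b α p P ζ) : v (uc α P - ζ) ≤ v b / v (p : K) := by
  rw [le_div_iff₀ hp0]; exact h.2

lemma val_b_le_div (hp1 : v (p : K) < 1) (hp0 : 0 < v (p : K)) : v b ≤ v b / v (p : K) := by
  rw [le_div_iff₀ hp0]
  calc v b * v (p : K) ≤ v b * 1 := by gcongr
    _ = v b := mul_one _

lemma div_lt_p (hp0 : 0 < v (p : K)) (hbp : v b < v (p : K) ^ 2) : v b / v (p : K) < v (p : K) := by
  rw [div_lt_iff₀ hp0, ← sq]; exact hbp

/-- distinct `p`-th roots of unity are at distance `≥ v p`. -/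
lemma val_p_le_sub (hz : IsPrimitiveRoot z₀ p) {ζ ζ' : K} (h : ζ ^ p = 1) (h' : ζ' ^ p = 1)
    (hne : ζ ≠ ζ') : v (p : K) ≤ v (ζ - ζ') := by
  have h1 := val_sub_pow_eq v hz h h' hne
  have hle : v (ζ - ζ') ≤ 1 := by
    have h2 := val_eq_one_of_pow_eq_one v hp.out.ne_zero h
    have h3 := val_eq_one_of_pow_eq_one v hp.out.ne_zero h'
    exact (v.map_sub _ _).trans (max_le h2.le h3.le)
  rw [← h1]
  have hp1 : p - 1 ≠ 0 := by have := hp.out.two_le; omega
  exact pow_le_of_le_one zero_le hle hp1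

/-- **(C1) existence of the closest root.** -/
theorem exists_root (H : MultRed v a b α) (hz : IsPrimitiveRoot z₀ p)
    {P : (Wab a b).toAffine.Point} (hP : InE1 v P) (hpP : p • P = 0) :
    ∃ k : ℕ, k < p ∧ IsRootOf v b α p P (z₀ ^ k) := by
  obtain ⟨-, hn⟩ := uc_nsmul (α := α) H hP.inE0 p
  rw [hpP, uc_zero] at hn
  obtain ⟨k, hk, hc⟩ := closest_root v hz (uc α P)
  refine ⟨k, hk, ?_, ?_⟩
  · rw [← pow_mul, mul_comm, pow_mul, hz.pow_eq_one, one_pow]
  · refine hc.trans ?_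
    rw [← Valuation.map_neg, neg_sub]
    exact hn

/-- **(C1') uniqueness of the closest root.** -/
theorem root_unique (hz : IsPrimitiveRoot z₀ p) (hp0 : 0 < v (p : K))
    (hbp : v b < v (p : K) ^ 2) {P : (Wab a b).toAffine.Point} {ζ ζ' : K}
    (h : IsRootOf v b α p P ζ) (h' : IsRootOf v b α p P ζ') : ζ = ζ' := by
  by_contra hne
  have h1 := val_p_le_sub (v := v) hz h.1 h'.1 hne
  have h2 : v (ζ - ζ') ≤ v b / v (p : K) := by
    have e : ζ - ζ' = (uc α P - ζ') - (uc α P - ζ) := by ring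
    rw [e]
    exact (v.map_sub _ _).trans (max_le (h'.le_div hp0) (h.le_div hp0))
  exact absurd (lt_of_le_of_lt (h1.trans h2) (div_lt_p hp0 hbp)) (lt_irrefl _)

/-- **(C2) `κ` is multiplicative.** -/
theorem root_add (H : MultRed v a b α) (hp0 : 0 < v (p : K)) (hp1 : v (p : K) < 1)
    {P Q : (Wab a b).toAffine.Point} (hP : InE1 v P) (hQ : InE1 v Q) {ζ ζ' : K}
    (h : IsRootOf v b α p P ζ) (h' : IsRootOf v b α p Q ζ') :
    IsRootOf v b α p (P + Q) (ζ * ζ') := by
  refine ⟨by rw [mul_pow, h.1, h'.1, one_mul], ?_⟩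
  rw [← le_div_iff₀ hp0]
  obtain ⟨-, hadd⟩ := uc_add (α := α) H hP.inE0 hQ.inE0
  have hu : v (uc α P) = 1 := val_uc H hP.inE0
  have hζ' : v ζ' = 1 := val_eq_one_of_pow_eq_one v hp.out.ne_zero h'.1
  have e : uc α (P + Q) - ζ * ζ' =
      (uc α (P + Q) - uc α P * uc α Q) + uc α P * (uc α Q - ζ') + ζ' * (uc α P - ζ) := by ring
  rw [e]
  refine (v.map_add _ _).trans (max_le ((v.map_add _ _).trans (max_le ?_ ?_)) ?_)
  · exact hadd.trans (val_b_le_div hp1 hp0)
  · rw [map_mul, hu, one_mul]; exact h'.le_div hp0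
  · rw [map_mul, hζ', one_mul]; exact h.le_div hp0

theorem root_neg (H : MultRed v a b α) (hp0 : 0 < v (p : K)) (hp1 : v (p : K) < 1)
    {P : (Wab a b).toAffine.Point} (hP : InE1 v P) {ζ : K}
    (h : IsRootOf v b α p P ζ) : IsRootOf v b α p (-P) ζ⁻¹ := by
  have hζ : v ζ = 1 := val_eq_one_of_pow_eq_one v hp.out.ne_zero h.1
  have hζ0 : ζ ≠ 0 := by
    rintro rfl
    rw [map_zero] at hζ
    exact zero_ne_one hζ
  have hu : v (uc α P) = 1 := val_uc H hP.inE0
  have hu0 : uc α P ≠ 0 := by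
    intro h0
    rw [h0, map_zero] at hu
    exact zero_ne_one hu
  refine ⟨by rw [inv_pow, h.1, inv_one], ?_⟩
  have hmul : uc α (-P) * uc α P = 1 := uc_neg_mul H hP.inE0
  have e : uc α (-P) - ζ⁻¹ = -(uc α (-P) * ζ⁻¹ * (uc α P - ζ)) := by
    have : uc α (-P) = (uc α P)⁻¹ := eq_inv_of_mul_eq_one_left hmul
    rw [this]
    field_simp
    ring
  have hun : v (uc α (-P)) = 1 := by
    have := congrArg v hmul
    rw [map_mul, hu, mul_one, map_one] at this
    exact this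
  rw [e, Valuation.map_neg, map_mul, map_mul, hun, map_inv₀, hζ, inv_one, one_mul, one_mul]
  exact h.2

theorem root_nsmul (H : MultRed v a b α) (hp0 : 0 < v (p : K)) (hp1 : v (p : K) < 1)
    {P : (Wab a b).toAffine.Point} (hP : InE1 v P) {ζ : K}
    (h : IsRootOf v b α p P ζ) (n : ℕ) : IsRootOf v b α p (n • P) (ζ ^ n) := by
  induction n with
  | zero =>
    rw [zero_smul, pow_zero]
    exact isRootOf_zero H.hb
  | succ n ih =>
    rw [succ_nsmul, pow_succ]
    exact root_add H hp0 hp1 (inE1_nsmul H hP n) hP ih h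

/-- **(C2) `κ` is injective**, in the form: root `1` forces `P = 0`. -/
theorem eq_zero_of_root_one (H : MultRed v a b α) (hp0 : 0 < v (p : K))
    (hbp : v b < v (p : K) ^ 2) {P : (Wab a b).toAffine.Point} (hP : InE1 v P)
    (hpP : p • P = 0) (h : IsRootOf v b α p P 1) : P = 0 := by
  by_contra hP0
  have h1 := val_le_of_torsion H hP hP0 hpP
  exact absurd (lt_of_le_of_lt (h1.trans (h.le_div hp0)) (div_lt_p hp0 hbp)) (lt_irrefl _)

theorem eq_of_root (H : MultRed v a b α) (hp0 : 0 < v (p : K)) (hp1 : v (p : K) < 1)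
    (hbp : v b < v (p : K) ^ 2) {P Q : (Wab a b).toAffine.Point} (hP : InE1 v P) (hQ : InE1 v Q)
    (hpP : p • P = 0) (hpQ : p • Q = 0) {ζ : K}
    (h : IsRootOf v b α p P ζ) (h' : IsRootOf v b α p Q ζ) : P = Q := by
  have hnQ : InE1 v (-Q) := KernelContract.inE1_neg v Q hQ
  have hD : InE1 v (P + -Q) := KernelContract.inE1_add v H.ha_le H.hb_le _ _ hP hnQ
  have hpD : p • (P + -Q) = 0 := by rw [smul_add, smul_neg, hpP, hpQ, neg_zero, add_zero]
  have hζ : v ζ = 1 := val_eq_one_of_pow_eq_one v hp.out.ne_zero h.1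
  have hζ0 : ζ ≠ 0 := by
    rintro rfl
    rw [map_zero] at hζ
    exact zero_ne_one hζ
  have hr := root_add H hp0 hp1 hP hnQ h (root_neg H hp0 hp1 hQ h')
  rw [mul_inv_cancel₀ hζ0] at hr
  have := eq_zero_of_root_one H hp0 hbp hD hpD hr
  rw [← sub_eq_add_neg] at this
  exact sub_eq_zero.mp this

theorem root_ne_one (H : MultRed v a b α) (hp0 : 0 < v (p : K))
    (hbp : v b < v (p : K) ^ 2) {P : (Wab a b).toAffine.Point} (hP : InE1 v P)
    (hpP : p • P = 0) (hP0 : P ≠ 0) {ζ : K} (h : IsRootOf v b α p P ζ) : ζ ≠ 1 := by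
  rintro rfl
  exact hP0 (eq_zero_of_root_one H hp0 hbp hP hpP h)

/-- **(C3)** for `c ∈ C`, `c ≠ 0`: `v (uc c - 1) = v (1 - z₀)`. -/
theorem val_uc_sub_one_eq (H : MultRed v a b α) (hz : IsPrimitiveRoot z₀ p) (hp0 : 0 < v (p : K))
    (hbp : v b < v (p : K) ^ 2) {P : (Wab a b).toAffine.Point} (hP : InE1 v P)
    (hpP : p • P = 0) (hP0 : P ≠ 0) : v (uc α P - 1) = v (1 - z₀) := by
  obtain ⟨k, hk, hr⟩ := exists_root H hz hP hpP
  have hne := root_ne_one H hp0 hbp hP hpP hP0 hr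
  have hpk : ¬ p ∣ k := by
    intro hd
    apply hne
    obtain ⟨m, rfl⟩ := hd
    rw [pow_mul, hz.pow_eq_one, one_pow]
  have h1 : v (1 - z₀ ^ k) = v (1 - z₀) := val_one_sub_pow_eq v hz hpk
  have h2 : v (p : K) ≤ v (z₀ ^ k - 1) := val_p_le_sub (v := v) hz hr.1 (one_pow p) hne
  have h3 : v (uc α P - z₀ ^ k) < v (z₀ ^ k - 1) :=
    lt_of_lt_of_le (lt_of_le_of_lt (hr.le_div hp0) (div_lt_p hp0 hbp)) h2
  have e : uc α P - 1 = (z₀ ^ k - 1) + (uc α P - z₀ ^ k) := by ring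
  rw [e, v.map_add_eq_of_lt_left h3, ← Valuation.map_neg, neg_sub, h1]

/-- **(C3)** in coordinates: `v (z(c)) = v (-x/y) = v (1 - z₀)`. -/
theorem val_z_eq (H : MultRed v a b α) (hz : IsPrimitiveRoot z₀ p) (hp0 : 0 < v (p : K))
    (hbp : v b < v (p : K) ^ 2) {x y : K} (h : (Wab a b).toAffine.Nonsingular x y)
    (hx : 1 < v x) (hpP : p • Point.some x y h = 0) : v (-x / y) = v (1 - z₀) := by
  rw [← val_uc_sub_one H h hx]
  exact val_uc_sub_one_eq H hz hp0 hbp (P := Point.some x y h) hx hpP (by simp)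

/-- **`C` is generated by any nonzero element.** -/
theorem exists_nsmul_eq (H : MultRed v a b α) (hz : IsPrimitiveRoot z₀ p) (hp0 : 0 < v (p : K))
    (hp1 : v (p : K) < 1) (hbp : v b < v (p : K) ^ 2) {P₀ P : (Wab a b).toAffine.Point}
    (hP₀ : InE1 v P₀) (hpP₀ : p • P₀ = 0) (hP₀0 : P₀ ≠ 0) (hP : InE1 v P) (hpP : p • P = 0) :
    ∃ n : ℕ, n < p ∧ P = n • P₀ := by
  obtain ⟨k₀, hk₀, hr₀⟩ := exists_root H hz hP₀ hpP₀
  obtain ⟨k, hk, hr⟩ := exists_root H hz hP hpP
  have hne := root_ne_one H hp0 hbp hP₀ hpP₀ hP₀0 hr₀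
  -- `z₀ ^ k₀` is primitive, so `z₀ ^ k` is a power of it
  have hprim : IsPrimitiveRoot (z₀ ^ k₀) p := by
    have h := orderOf_eq_prime hr₀.1 hne
    rw [← h]
    exact IsPrimitiveRoot.orderOf _
  obtain ⟨n, hn, hpow⟩ := hprim.eq_pow_of_pow_eq_one hr.1
  refine ⟨n, hn, ?_⟩
  have hrn := root_nsmul H hp0 hp1 hP₀ hr₀ n
  rw [hpow] at hrn
  exact eq_of_root H hp0 hp1 hbp hP (inE1_nsmul H hP₀ n) hpP
    (by rw [smul_comm, hpP₀, smul_zero]) hr hrn

/-! ### Equivariance in coordinates -/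

theorem uc_map (σ : K →+* K) (hσα : σ α = α) {x y : K} (h : (Wab a b).toAffine.Nonsingular x y)
    (h' : (Wab a b).toAffine.Nonsingular (σ x) (σ y)) :
    uc α (Point.some (σ x) (σ y) h') = σ (uc α (Point.some x y h)) := by
  rw [uc_some, uc_some, map_div₀, map_sub, map_add, map_mul, hσα]

theorem root_map (σ : K →+* K) (hσα : σ α = α) (hσv : ∀ x, v (σ x) = v x) {x y : K}
    (h : (Wab a b).toAffine.Nonsingular x y)
    (h' : (Wab a b).toAffine.Nonsingular (σ x) (σ y)) {ζ : K}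
    (hr : IsRootOf v b α p (Point.some x y h) ζ) :
    IsRootOf v b α p (Point.some (σ x) (σ y) h') (σ ζ) := by
  refine ⟨by rw [← map_pow, hr.1, map_one], ?_⟩
  rw [uc_map σ hσα h h', ← map_sub, hσv]
  exact hr.2

end Fermat.Agent.T1B.ESide46
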