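/-
Programme T1B (row 38 via S44), brick E-SIDE44 / E44-CS part 2 (helper46): COUNTING.

On `Wab a b` with `MultRed v a b α`, residue characteristic `p` (`v p < 1`):
* `val_sub_one_lt_of_pow`  : `v t ≤ 1`, `v (t ^ p - 1) < 1` ⟹ `v (t - 1) < 1`;
* `inE1_of_inE0_of_torsion`: `E₀[p] ⊆ E₁` (so `E[p] ∩ E₀ = C`);
* `cval_eq_one_iff`, `cval_bounds` : the component value of `S05/Components` lies in `(v b ^ 2, 1]` and is `1`
  exactly on `E₀`;
* `inE1_sub_of_cval_eq`    : two `p`-torsion points with the same component value differ by an element of `C`;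
* `exists_cval_pow`        : `cval P ^ p = v b ^ (2 k)`, `0 ≤ k < p`, for `P ∈ E[p]`;
* **`exists_ne_zero_inE1`** : over an algebraically closed field of characteristic `0` the group
  `C = E[p] ∩ E₁` is NON-TRIVIAL (pigeonhole: `p²` torsion points, at most `p` component values).
Together with `CStruct.exists_nsmul_eq` : `C` is cyclic of order `p`.
-/
import Fermat.Agent.T1B.ESide46.CStruct
import Fermat.Agent.S05.Components
import Fermat.Agent.DivPoly.CardEq29

set_option autoImplicit false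
set_option linter.unusedSectionVars false
set_option linter.unusedVariables false

namespace Fermat.Agent.T1B.ESide46

open WeierstrassCurve WeierstrassCurve.Affine Fermat.Agent.S05

variable {K : Type*} [Field K] [DecidableEq K] {a b α : K}
variable {Γ₀ : Type*} [LinearOrderedCommGroupWithZero Γ₀] {v : Valuation K Γ₀}
variable {p : ℕ} [hp : Fact p.Prime]

/-- In residue characteristic `p`: `v (t ^ p - 1) < 1` forces `v (t - 1) < 1`. -/
theorem val_sub_one_lt_of_pow (hodd : Odd p) (hp1 : v (p : K) < 1) {t : K} (ht : v t ≤ 1)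
    (h : v (t ^ p - 1) < 1) : v (t - 1) < 1 := by
  by_contra hge
  rw [not_lt] at hge
  have hle : v (t - 1) ≤ 1 := (v.map_sub _ _).trans (max_le ht (by rw [map_one]))
  have h1 : v (t - 1) = 1 := le_antisymm hle hge
  have h2 : v ((t - 1) ^ p) = 1 := by rw [map_pow, h1, one_pow]
  obtain ⟨r, hr⟩ := exists_add_pow_prime_eq hp.out (⟨t, ht⟩ : v.integer) (-1)
  have hr' : (t + -1) ^ p = t ^ p + (-1) ^ p + (p : K) * t * (-1) * (r : K) := by
    have := congrArg (v.integer.subtype) hr
    simpa using this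
  rw [hodd.neg_one_pow] at hr'
  have e : (t - 1) ^ p = (t ^ p - 1) + (p : K) * t * (-1) * (r : K) := by
    rw [sub_eq_add_neg t 1, hr']; ring
  have h3 : v ((p : K) * t * (-1) * (r : K)) < 1 := by
    rw [map_mul, map_mul, map_mul, Valuation.map_neg, map_one, mul_one]
    calc v (p : K) * v t * v (r : K) ≤ v (p : K) * 1 * 1 := by
          gcongr
          exact r.2
      _ = v (p : K) := by rw [mul_one, mul_one]
      _ < 1 := hp1
  have h4 : v ((t - 1) ^ p) < 1 := by
    rw [e]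
    exact lt_of_le_of_lt (v.map_add _ _) (max_lt h h3)
  rw [h2] at h4
  exact lt_irrefl _ h4

lemma odd_of_multRed (H : MultRed v a b α) (hp1 : v (p : K) < 1) : Odd p := by
  refine hp.out.odd_of_ne_two ?_
  rintro rfl
  have := H.h2
  rw [show ((2 : ℕ) : K) = 2 by norm_num] at hp1
  rw [this] at hp1
  exact lt_irrefl _ hp1

/-- **`E₀[p] ⊆ E₁`.** -/
theorem inE1_of_inE0_of_torsion (H : MultRed v a b α) (hp1 : v (p : K) < 1)
    {P : (Wab a b).toAffine.Point} (hP : InE0 v P) (hpP : p • P = 0) : InE1 v P := by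
  rw [inE1_iff_uc H hP]
  obtain ⟨-, hn⟩ := uc_nsmul (α := α) H hP p
  rw [hpP, uc_zero] at hn
  apply val_sub_one_lt_of_pow (odd_of_multRed H hp1) hp1 (val_uc H hP).le
  rw [← Valuation.map_neg, neg_sub]
  exact lt_of_le_of_lt hn H.hb

/-! ### The component value -/

lemma val_b_pos (H : MultRed v a b α) : 0 < v b := by
  rw [Valuation.pos_iff]; exact H.hb0

lemma cval_bounds (H : MultRed v a b α) (P : (Wab a b).toAffine.Point) :
    v b ^ 2 < cval v α P ∧ cval v α P ≤ 1 := by
  have hb0 := val_b_pos H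
  have hb1 := H.hb
  have hbsq : v b ^ 2 < v b := by
    rw [sq]
    calc v b * v b < v b * 1 := mul_lt_mul_of_pos_left hb1 hb0
      _ = v b := mul_one _
  rcases P with _ | ⟨x, y, h⟩
  · change v b ^ 2 < 1 ∧ (1 : Γ₀) ≤ 1
    exact ⟨lt_trans hbsq hb1, le_rfl⟩
  · by_cases h1 : 1 ≤ v x
    · simp only [cval, if_pos h1]
      exact ⟨lt_trans hbsq hb1, le_rfl⟩
    · by_cases h2 : v x ≤ v b
      · simp only [cval, if_neg h1, if_pos h2]
        exact ⟨hbsq, hb1.le⟩
      · rw [not_le] at h1 h2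
        have hx0 : 0 < v x := lt_trans hb0 h2
        by_cases h3 : v (y / x - α) < 1
        · simp only [cval, if_neg (not_le.mpr h1), if_neg (not_le.mpr h2), if_pos h3]
          exact ⟨lt_trans hbsq h2, h1.le⟩
        · simp only [cval, if_neg (not_le.mpr h1), if_neg (not_le.mpr h2), if_neg h3]
          refine ⟨?_, ?_⟩
          · rw [lt_div_iff₀ hx0]
            calc v b ^ 2 * v x < v b ^ 2 * 1 := mul_lt_mul_of_pos_left h1 (pow_pos hb0 2)
              _ = v b ^ 2 := mul_one _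
          · rw [div_le_one₀ hx0]
            exact (lt_trans hbsq h2).le

lemma cval_eq_one_iff (H : MultRed v a b α) (P : (Wab a b).toAffine.Point) :
    cval v α P = 1 ↔ InE0 v P := by
  refine ⟨fun h => ?_, fun h => cval_of_inE0 α h⟩
  have hb0 := val_b_pos H
  have hb1 := H.hb
  rcases P with _ | ⟨x, y, hxy⟩
  · trivial
  · change 1 ≤ v x
    by_contra h1
    by_cases h2 : v x ≤ v b
    · simp only [cval, if_neg h1, if_pos h2] at h
      rw [h] at hb1
      exact lt_irrefl _ hb1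
    · rw [not_le] at h1 h2
      have hx0 : 0 < v x := lt_trans hb0 h2
      by_cases h3 : v (y / x - α) < 1
      · simp only [cval, if_neg (not_le.mpr h1), if_neg (not_le.mpr h2), if_pos h3] at h
        rw [h] at h1
        exact lt_irrefl _ h1
      · simp only [cval, if_neg (not_le.mpr h1), if_neg (not_le.mpr h2), if_neg h3] at h
        rw [div_eq_one_iff_eq hx0.ne'] at h
        have hbsq : v b ^ 2 < v b := by
          rw [sq]
          calc v b * v b < v b * 1 := mul_lt_mul_of_pos_left hb1 hb0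
            _ = v b := mul_one _
        rw [h] at hbsq
        exact absurd (lt_trans hbsq h2) (lt_irrefl _)

/-- A component value related to `1` is `1`. -/
lemma cval_eq_one_of_cRel (H : MultRed v a b α) (P : (Wab a b).toAffine.Point)
    (h : CRel (v b) (cval v α P) 1) : cval v α P = 1 := by
  obtain ⟨k, hk⟩ := h
  rw [one_mul] at hk
  obtain ⟨hlo, hhi⟩ := cval_bounds (α := α) H P
  have hb0 := val_b_pos H
  have hb1 := H.hb
  rw [hk] at hlo hhi
  have h1 : 0 ≤ 2 * k := (zpow_le_one_iff_right_of_lt_one₀ hb0 hb1).mp hhi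
  have h2 : 2 * k < 2 := by
    have : v b ^ (2 : ℤ) < v b ^ (2 * k) := by
      rw [show (2 : ℤ) = ((2 : ℕ) : ℤ) by norm_num, zpow_natCast]; exact hlo
    exact (zpow_lt_zpow_iff_right_of_lt_one₀ hb0 hb1).mp this
  have hk0 : k = 0 := by omega
  rw [hk, hk0, mul_zero, zpow_zero]

/-- Two `p`-torsion points with the same component value differ by an element of `C`. -/
theorem inE1_sub_of_cval_eq (H : MultRed v a b α) (hp1 : v (p : K) < 1)
    {P Q : (Wab a b).toAffine.Point} (hpP : p • P = 0) (hpQ : p • Q = 0)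
    (hc : cval v α P = cval v α Q) : InE1 v (P - Q) := by
  have ht : v b ≠ 0 := (val_b_pos H).ne'
  have hpD : p • (P - Q) = 0 := by rw [smul_sub, hpP, hpQ, sub_zero]
  have h1 := cval_add H.h2 H.hb H.hb0 H.hα H.hαv P (-Q)
  have h2 := cval_add H.h2 H.hb H.hb0 H.hα H.hαv Q (-Q)
  rw [add_neg_cancel, cval_zero] at h2
  rw [hc, ← sub_eq_add_neg] at h1
  have h3 : CRel (v b) (cval v α (P - Q)) 1 := h1.trans ht (h2.symm ht)
  have h4 := cval_eq_one_of_cRel H _ h3
  exact inE1_of_inE0_of_torsion H hp1 ((cval_eq_one_iff H _).mp h4) hpD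

/-- For `P ∈ E[p]`: `cval P ^ p = v b ^ (2 k)` with `k < p`. -/
theorem exists_cval_pow (H : MultRed v a b α) {P : (Wab a b).toAffine.Point} (hpP : p • P = 0) :
    ∃ k : ℕ, k < p ∧ cval v α P ^ p = v b ^ (2 * k) := by
  have hb0 := val_b_pos H
  have hb1 := H.hb
  have ht : v b ≠ 0 := hb0.ne'
  have hrel := cval_nsmul H.h2 H.hb H.hb0 H.hα H.hαv P p
  rw [hpP, cval_zero] at hrel
  obtain ⟨k, hk⟩ := hrel
  -- `cval P ^ p = v b ^ (2 * (-k))`
  have hk' : cval v α P ^ p = v b ^ (2 * (-k)) := by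
    rw [mul_neg, zpow_neg]
    exact eq_inv_of_mul_eq_one_left hk.symm
  obtain ⟨hlo, hhi⟩ := cval_bounds (α := α) H P
  have hp0 : p ≠ 0 := hp.out.ne_zero
  have hlo' : (v b ^ 2) ^ p < cval v α P ^ p := pow_lt_pow_left₀ hlo zero_le hp0
  have hhi' : cval v α P ^ p ≤ 1 := pow_le_one₀ zero_le hhi
  rw [hk'] at hlo' hhi'
  have h1 : 0 ≤ 2 * (-k) := (zpow_le_one_iff_right_of_lt_one₀ hb0 hb1).mp hhi'
  have h2 : 2 * (-k) < 2 * (p : ℤ) := by
    have : v b ^ (2 * (p : ℤ)) < v b ^ (2 * (-k)) := by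
      rw [show (2 * (p : ℤ)) = ((2 * p : ℕ) : ℤ) by push_cast; ring, zpow_natCast, pow_mul]
      exact hlo'
    exact (zpow_lt_zpow_iff_right_of_lt_one₀ hb0 hb1).mp this
  refine ⟨(-k).toNat, ?_, ?_⟩
  · omega
  · rw [hk', ← zpow_natCast]
    congr 1
    push_cast
    rw [Int.toNat_of_nonneg (by omega)]

/-- `Δ(Wab a b) = 16 b² (a² - 4 b)`. -/
lemma Wab_Δ : (Wab a b).Δ = 16 * b ^ 2 * (a ^ 2 - 4 * b) := by
  simp only [WeierstrassCurve.Δ, WeierstrassCurve.b₂, WeierstrassCurve.b₄, WeierstrassCurve.b₆,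
    WeierstrassCurve.b₈, Wab_a₁, Wab_a₂, Wab_a₃, Wab_a₄, Wab_a₆]
  ring

lemma Wab_Δ_ne_zero (H : MultRed v a b α) : (Wab a b).Δ ≠ 0 := by
  rw [Wab_Δ]
  have h16 : v (16 : K) = 1 := by
    rw [show (16 : K) = 2 ^ 4 by norm_num, map_pow, H.h2, one_pow]
  have h4b : v (4 * b) < 1 := by
    rw [show (4 : K) = 2 ^ 2 by norm_num, map_mul, map_pow, H.h2, one_pow, one_mul]
    exact H.hb
  have h1 : v (a ^ 2 - 4 * b) = 1 := by
    rw [v.map_sub_eq_of_lt_left (by rw [map_pow, H.ha, one_pow]; exact h4b), map_pow, H.ha, one_pow]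
  intro h0
  have := congrArg v h0
  rw [map_mul, map_mul, h16, h1, map_pow, map_zero, one_mul, mul_one] at this
  exact (pow_ne_zero 2 (val_b_pos H).ne') this

/-- **`C = E[p] ∩ E₁` is non-trivial** (algebraically closed field of characteristic `0`). -/
theorem exists_ne_zero_inE1 [IsAlgClosed K] [CharZero K] (H : MultRed v a b α)
    (hp1 : v (p : K) < 1) :
    ∃ P₀ : (Wab a b).toAffine.Point, P₀ ≠ 0 ∧ p • P₀ = 0 ∧ InE1 v P₀ := by
  classical
  have hodd := odd_of_multRed H hp1
  have hpK : (p : K) ≠ 0 := Nat.cast_ne_zero.mpr hp.out.ne_zero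
  have := Fermat.Agent.DivPoly.CountFinal.finite_torsionBy (W := (Wab a b).toAffine) hodd hpK
  have hcard := Fermat.Agent.DivPoly.CardEq29.card_torsionBy_eq (W := (Wab a b).toAffine)
    (Wab_Δ_ne_zero H) hodd
  have : Fintype (Submodule.torsionBy ℤ (Wab a b).toAffine.Point (p : ℤ)) := Fintype.ofFinite _
  have hmem : ∀ P : Submodule.torsionBy ℤ (Wab a b).toAffine.Point (p : ℤ),
      p • (P : (Wab a b).toAffine.Point) = 0 := by
    intro P
    have := P.2
    rw [Submodule.mem_torsionBy_iff, natCast_zsmul] at this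
    exact this
  have hex : ∀ P : Submodule.torsionBy ℤ (Wab a b).toAffine.Point (p : ℤ),
      ∃ k : Fin p, cval v α (P : (Wab a b).toAffine.Point) ^ p = v b ^ (2 * (k : ℕ)) := by
    intro P
    obtain ⟨k, hk, hkp⟩ := exists_cval_pow (α := α) H (hmem P)
    exact ⟨⟨k, hk⟩, hkp⟩
  choose f hf using hex
  have hlt : Fintype.card (Fin p) <
      Fintype.card (Submodule.torsionBy ℤ (Wab a b).toAffine.Point (p : ℤ)) := by
    rw [← Nat.card_eq_fintype_card (α := Submodule.torsionBy ℤ (Wab a b).toAffine.Point (p : ℤ)),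
      hcard, Fintype.card_fin, sq]
    have := hp.out.two_le
    nlinarith
  obtain ⟨P, Q, hne, hfe⟩ := Fintype.exists_ne_map_eq_of_card_lt f hlt
  have hc : cval v α (P : (Wab a b).toAffine.Point) = cval v α (Q : (Wab a b).toAffine.Point) := by
    have h1 := hf P
    rw [hfe, ← hf Q] at h1
    exact (pow_left_inj₀ zero_le zero_le hp.out.ne_zero).mp h1
  refine ⟨(P : (Wab a b).toAffine.Point) - Q, ?_, ?_, ?_⟩
  · intro h0
    exact hne (Subtype.ext (sub_eq_zero.mp h0))
  · rw [smul_sub, hmem P, hmem Q, sub_zero]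
  · exact inE1_sub_of_cval_eq H hp1 (hmem P) (hmem Q) hc

end Fermat.Agent.T1B.ESide46
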