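/-
Programme T1B (row 38 via S44), brick E-SIDE44 / E44-CS part 3 (helper46): A BASIS OF `E[p]` ADAPTED TO THE
FILTRATION `C = E[p] ∩ E₁ ⊂ E[p]`.

`Wab a b`, `MultRed v a b α`, `K` algebraically closed of characteristic `0`, `0 < v p < 1`, `v b < v p ^ 2`,
`v b = ρ₀ ^ p` (Frey: `b = h₀ ^ p`).  Then (**`exists_basis`**) there are `P₀, Q ∈ E[p]` with
* `P₀ ≠ 0`, `P₀ ∈ E₁`, and every element of `C` is `k • P₀`, `k < p`;
* `Q = (x, x s)` lies on the `α`-branch with `v x = ρ₀ ^ 2`;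
* every `T ∈ E[p]` is `i • Q + j • P₀` with `i, j < p`.
Pure counting with the component value `cval` of `S05/Components` (no division polynomials beyond
`|E[p]| = p²`).
-/
import Fermat.Agent.T1B.ESide46.CCount

set_option autoImplicit false
set_option linter.unusedSectionVars false
set_option linter.unusedVariables false

namespace Fermat.Agent.T1B.ESide46

open WeierstrassCurve WeierstrassCurve.Affine Fermat.Agent.S05 Fermat.Agent.S05.CompH3

variable {K : Type*} [Field K] [DecidableEq K] {a b α : K}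
variable {Γ₀ : Type*} [LinearOrderedCommGroupWithZero Γ₀] {v : Valuation K Γ₀}
variable {p : ℕ} [hp : Fact p.Prime] {z₀ : K}

/-- Two elements of `(t ^ 2, 1]` congruent modulo `t ^ (2ℤ)` are equal. -/
lemma eq_of_cRel_of_bounds {t u w : Γ₀} (ht0 : 0 < t) (ht1 : t < 1) (hu : t ^ 2 < u ∧ u ≤ 1)
    (hw : t ^ 2 < w ∧ w ≤ 1) (h : CRel t u w) : u = w := by
  obtain ⟨k, hk⟩ := h
  have ht : t ≠ 0 := ht0.ne'
  have h2 : t ^ (2 : ℤ) = t ^ 2 := by
    rw [show (2 : ℤ) = ((2 : ℕ) : ℤ) by norm_num, zpow_natCast]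
  rcases lt_trichotomy k 0 with hneg | rfl | hpos
  · -- `w = u * t ^ (-2k)`, `-2k ≥ 2`
    exfalso
    have hw' : w = u * t ^ (2 * (-k)) := by
      rw [hk, mul_assoc, ← zpow_add₀ ht]
      simp
    have h3 : t ^ (2 * (-k)) ≤ t ^ (2 : ℤ) :=
      zpow_le_zpow_right_of_le_one₀ ht0 ht1.le (by omega)
    have : w ≤ t ^ 2 := by
      rw [hw', ← h2]
      calc u * t ^ (2 * (-k)) ≤ 1 * t ^ (2 : ℤ) := mul_le_mul' hu.2 h3
        _ = t ^ (2 : ℤ) := one_mul _
    exact absurd hw.1 (not_lt.mpr this)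
  · rw [hk]; simp
  · exfalso
    have h3 : t ^ (2 * k) ≤ t ^ (2 : ℤ) :=
      zpow_le_zpow_right_of_le_one₀ ht0 ht1.le (by omega)
    have : u ≤ t ^ 2 := by
      rw [hk, ← h2]
      calc w * t ^ (2 * k) ≤ 1 * t ^ (2 : ℤ) := mul_le_mul' hw.2 h3
        _ = t ^ (2 : ℤ) := one_mul _
    exact absurd hu.1 (not_lt.mpr this)

/-- Two `p`-torsion points with congruent component values differ by an element of `C`. -/
theorem inE1_sub_of_cRel (H : MultRed v a b α) (hp1 : v (p : K) < 1)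
    {P Q : (Wab a b).toAffine.Point} (hpP : p • P = 0) (hpQ : p • Q = 0)
    (hc : CRel (v b) (cval v α P) (cval v α Q)) : InE1 v (P - Q) := by
  have ht : v b ≠ 0 := (val_b_pos H).ne'
  have hpD : p • (P - Q) = 0 := by rw [smul_sub, hpP, hpQ, sub_zero]
  have h1 := cval_add H.h2 H.hb H.hb0 H.hα H.hαv P (-Q)
  have h2 := cval_add H.h2 H.hb H.hb0 H.hα H.hαv Q (-Q)
  rw [add_neg_cancel, cval_zero] at h2
  rw [← sub_eq_add_neg] at h1
  have h3 : CRel (v b) (cval v α (P - Q)) 1 :=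
    (h1.trans ht (CRel.mul ht hc (CRel.refl _ _))).trans ht (h2.symm ht)
  have h4 := cval_eq_one_of_cRel H _ h3
  exact inE1_of_inE0_of_torsion H hp1 ((cval_eq_one_iff H _).mp h4) hpD

section Rho

variable {ρ₀ : Γ₀}

lemma rho_pos (H : MultRed v a b α) (hρ : v b = ρ₀ ^ p) : 0 < ρ₀ := by
  rcases eq_or_lt_of_le (zero_le (a := ρ₀)) with h | h
  · exfalso
    rw [← h, zero_pow hp.out.ne_zero] at hρ
    exact (val_b_pos H).ne' hρ
  · exact h

lemma rho_lt_one (H : MultRed v a b α) (hρ : v b = ρ₀ ^ p) : ρ₀ < 1 := by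
  by_contra h
  rw [not_lt] at h
  have : 1 ≤ ρ₀ ^ p := one_le_pow₀ h
  rw [← hρ] at this
  exact absurd H.hb (not_lt.mpr this)

/-- `ρ₀ ^ (2 i)` lies in `(v b ^ 2, 1]` for `i < p`. -/
lemma rho_pow_bounds (H : MultRed v a b α) (hρ : v b = ρ₀ ^ p) {i : ℕ} (hi : i < p) :
    v b ^ 2 < ρ₀ ^ (2 * i) ∧ ρ₀ ^ (2 * i) ≤ 1 := by
  have h0 := rho_pos H hρ
  have h1 := rho_lt_one H hρ
  refine ⟨?_, pow_le_one₀ zero_le h1.le⟩
  rw [hρ, ← pow_mul]
  exact pow_lt_pow_right_of_lt_one₀ h0 h1 (by nlinarith)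

/-- The component value of a `p`-torsion point is `ρ₀ ^ (2 i)`, `i < p`. -/
theorem exists_cval_eq (H : MultRed v a b α) (hρ : v b = ρ₀ ^ p)
    {P : (Wab a b).toAffine.Point} (hpP : p • P = 0) :
    ∃ i : ℕ, i < p ∧ cval v α P = ρ₀ ^ (2 * i) := by
  obtain ⟨i, hi, hc⟩ := exists_cval_pow (α := α) H hpP
  refine ⟨i, hi, ?_⟩
  apply (pow_left_inj₀ zero_le zero_le hp.out.ne_zero).mp
  rw [hc, hρ, ← pow_mul, ← pow_mul]
  congr 1
  ring

end Rho

/-- Not all of `E[p]` lies in `E₀`. -/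
theorem exists_cval_ne_one [IsAlgClosed K] [CharZero K] (H : MultRed v a b α)
    (hz : IsPrimitiveRoot z₀ p) (hp0 : 0 < v (p : K)) (hp1 : v (p : K) < 1)
    (hbp : v b < v (p : K) ^ 2) :
    ∃ P : (Wab a b).toAffine.Point, p • P = 0 ∧ cval v α P ≠ 1 := by
  classical
  by_contra hcon
  push Not at hcon
  obtain ⟨P₀, hP₀0, hpP₀, hP₀⟩ := exists_ne_zero_inE1 (v := v) (α := α) (p := p) H hp1
  have hodd := odd_of_multRed H hp1
  have hpK : (p : K) ≠ 0 := Nat.cast_ne_zero.mpr hp.out.ne_zero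
  have := Fermat.Agent.DivPoly.CountFinal.finite_torsionBy (W := (Wab a b).toAffine) hodd hpK
  have hcard := Fermat.Agent.DivPoly.CardEq29.card_torsionBy_eq (W := (Wab a b).toAffine)
    (Wab_Δ_ne_zero H) hodd
  have : Fintype (Submodule.torsionBy ℤ (Wab a b).toAffine.Point (p : ℤ)) := Fintype.ofFinite _
  have hmem : ∀ P : Submodule.torsionBy ℤ (Wab a b).toAffine.Point (p : ℤ),
      p • (P : (Wab a b).toAffine.Point) = 0 := by
    intro P
    have := P.2
    rw [Submodule.mem_torsionBy_iff, natCast_zsmul] at this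
    exact this
  have hex : ∀ P : Submodule.torsionBy ℤ (Wab a b).toAffine.Point (p : ℤ),
      ∃ n : Fin p, (P : (Wab a b).toAffine.Point) = (n : ℕ) • P₀ := by
    intro P
    have hE0 : InE0 v (P : (Wab a b).toAffine.Point) :=
      (cval_eq_one_iff (α := α) H _).mp (hcon _ (hmem P))
    have hE1 := inE1_of_inE0_of_torsion H hp1 hE0 (hmem P)
    obtain ⟨n, hn, he⟩ := exists_nsmul_eq H hz hp0 hp1 hbp hP₀ hpP₀ hP₀0 hE1 (hmem P)
    exact ⟨⟨n, hn⟩, he⟩
  choose f hf using hex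
  have hinj : Function.Injective f := by
    intro P Q hPQ
    apply Subtype.ext
    rw [hf P, hf Q, hPQ]
  have hle := Fintype.card_le_of_injective f hinj
  rw [← Nat.card_eq_fintype_card (α := Submodule.torsionBy ℤ (Wab a b).toAffine.Point (p : ℤ)),
    hcard, Fintype.card_fin, sq] at hle
  have := hp.out.two_le
  nlinarith

/-- **A basis of `E[p]` adapted to `C ⊂ E[p]`.** -/
theorem exists_basis [IsAlgClosed K] [CharZero K] (H : MultRed v a b α)
    (hz : IsPrimitiveRoot z₀ p) (hp0 : 0 < v (p : K)) (hp1 : v (p : K) < 1)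
    (hbp : v b < v (p : K) ^ 2) {ρ₀ : Γ₀} (hρ : v b = ρ₀ ^ p) :
    ∃ P₀ Q : (Wab a b).toAffine.Point, P₀ ≠ 0 ∧ p • P₀ = 0 ∧ InE1 v P₀ ∧ p • Q = 0 ∧
      (∃ (x s : K) (h : (Wab a b).toAffine.Nonsingular x (x * s)),
        Q = Point.some x (x * s) h ∧ IsAlpha v b α x s ∧ v x = ρ₀ ^ 2) ∧
      (∀ c : (Wab a b).toAffine.Point, p • c = 0 → InE1 v c → ∃ k : ℕ, k < p ∧ c = k • P₀) ∧
      (∀ T : (Wab a b).toAffine.Point, p • T = 0 →
        ∃ i j : ℕ, i < p ∧ j < p ∧ T = i • Q + j • P₀) := by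
  classical
  have hb0 := val_b_pos H
  have ht : v b ≠ 0 := hb0.ne'
  have hρ0 := rho_pos H hρ
  have hρ1 := rho_lt_one H hρ
  have hodd := odd_of_multRed H hp1
  have hp2 : 2 < p := by
    have := hp.out.two_le
    rcases hodd with ⟨m, hm⟩
    omega
  obtain ⟨P₀, hP₀0, hpP₀, hP₀⟩ := exists_ne_zero_inE1 (v := v) (α := α) (p := p) H hp1
  -- a point with non-trivial component
  obtain ⟨P, hpP, hcP⟩ := exists_cval_ne_one (α := α) H hz hp0 hp1 hbp
  obtain ⟨k₁, hk₁, hck₁⟩ := exists_cval_eq (α := α) H hρ hpP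
  have hk₁0 : k₁ ≠ 0 := by
    rintro rfl
    rw [mul_zero, pow_zero] at hck₁
    exact hcP hck₁
  have hcop : Nat.Coprime k₁ p :=
    (Nat.Coprime.symm ((Nat.Prime.coprime_iff_not_dvd hp.out).2
      (fun hd => absurd (Nat.le_of_dvd (Nat.pos_of_ne_zero hk₁0) hd) (not_le.mpr hk₁))))
  obtain ⟨m, -, hm⟩ := Nat.exists_mul_mod_eq_one_of_coprime hcop hp.out.one_lt
  -- `Q = m • P` has component value `ρ₀ ^ 2`
  have hpQ : p • (m • P) = 0 := by rw [smul_comm, hpP, smul_zero]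
  have hcQ : cval v α (m • P) = ρ₀ ^ 2 := by
    have h1 := cval_nsmul H.h2 H.hb H.hb0 H.hα H.hαv P m
    rw [hck₁, ← pow_mul] at h1
    -- `ρ₀ ^ (2 k₁ m) ~ ρ₀ ^ 2`
    have h2 : CRel (v b) (ρ₀ ^ (2 * k₁ * m)) (ρ₀ ^ 2) := by
      refine ⟨((k₁ * m / p : ℕ) : ℤ), ?_⟩
      have e : k₁ * m = 1 + p * (k₁ * m / p) := by
        have := Nat.div_add_mod (k₁ * m) p
        rw [hm] at this
        omega
      rw [hρ, show (2 * ((k₁ * m / p : ℕ) : ℤ)) = ((2 * (k₁ * m / p) : ℕ) : ℤ) by push_cast; ring,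
        zpow_natCast, ← pow_mul, ← pow_add]
      congr 1
      rw [mul_assoc]
      nth_rewrite 1 [e]
      ring
    obtain ⟨i, hi, hci⟩ := exists_cval_eq (α := α) H hρ hpQ
    have h3 : CRel (v b) (ρ₀ ^ (2 * i)) (ρ₀ ^ 2) := by
      rw [← hci]; exact h1.trans ht h2
    rw [hci]
    have hb2 : v b ^ 2 < ρ₀ ^ 2 ∧ ρ₀ ^ 2 ≤ 1 := by
      have := rho_pow_bounds (α := α) H hρ (i := 1) (by omega)
      simpa using this
    exact eq_of_cRel_of_bounds hb0 H.hb (rho_pow_bounds (α := α) H hρ hi) hb2 h3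
  -- `Q` lies on the `α`-branch
  have hQα : ∃ (x s : K) (h : (Wab a b).toAffine.Nonsingular x (x * s)),
      m • P = Point.some x (x * s) h ∧ IsAlpha v b α x s ∧ v x = ρ₀ ^ 2 := by
    have hρ2 : ρ₀ ^ 2 < 1 := pow_lt_one₀ zero_le hρ1 (by norm_num)
    have hbρ : v b < ρ₀ ^ 2 := by
      rw [hρ]; exact pow_lt_pow_right_of_lt_one₀ hρ0 hρ1 hp2
    rcases hQ : m • P with _ | ⟨x, y, h⟩
    · exfalso
      rw [hQ] at hcQ
      have : cval v α (0 : (Wab a b).toAffine.Point) = 1 := cval_zero α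
      change cval v α (0 : (Wab a b).toAffine.Point) = ρ₀ ^ 2 at hcQ
      rw [this] at hcQ
      rw [← hcQ] at hρ2
      exact lt_irrefl _ hρ2
    · rw [hQ] at hcQ
      by_cases h1 : 1 ≤ v x
      · exfalso
        simp only [cval, if_pos h1] at hcQ
        rw [← hcQ] at hρ2
        exact lt_irrefl _ hρ2
      · by_cases h2 : v x ≤ v b
        · exfalso
          simp only [cval, if_neg h1, if_pos h2] at hcQ
          rw [hcQ] at hbρ
          exact lt_irrefl _ hbρ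
        · rw [not_le] at h1 h2
          have hx0 : x ≠ 0 := by
            rintro rfl
            rw [map_zero] at h2
            exact not_lt_zero h2
          by_cases h3 : v (y / x - α) < 1
          · simp only [cval, if_neg (not_le.mpr h1), if_neg (not_le.mpr h2), if_pos h3] at hcQ
            obtain ⟨h', e⟩ := some_eq_xs h hx0
            exact ⟨x, y / x, h', e, ⟨h2, h1, h3⟩, hcQ⟩
          · exfalso
            simp only [cval, if_neg (not_le.mpr h1), if_neg (not_le.mpr h2), if_neg h3] at hcQ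
            -- `v x = v b ^ 2 / ρ₀ ^ 2 ≤ v b`
            have hxpos : 0 < v x := lt_trans hb0 h2
            rw [div_eq_iff hxpos.ne'] at hcQ
            have h4 : v b * v b < v b * v x := mul_lt_mul_of_pos_left h2 hb0
            have h5 : v b * v x < ρ₀ ^ 2 * v x := mul_lt_mul_of_pos_right hbρ hxpos
            rw [← sq, hcQ] at h4
            exact absurd (lt_trans h4 h5) (lt_irrefl _)
  refine ⟨P₀, m • P, hP₀0, hpP₀, hP₀, hpQ, hQα, ?_, ?_⟩
  · intro c hpc hc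
    exact exists_nsmul_eq H hz hp0 hp1 hbp hP₀ hpP₀ hP₀0 hc hpc
  · intro T hpT
    obtain ⟨i, hi, hci⟩ := exists_cval_eq (α := α) H hρ hpT
    have hpiQ : p • (i • (m • P)) = 0 := by rw [smul_comm, hpQ, smul_zero]
    have h1 := cval_nsmul H.h2 H.hb H.hb0 H.hα H.hαv (m • P) i
    rw [hcQ, ← pow_mul] at h1
    have h2 : CRel (v b) (cval v α T) (cval v α (i • (m • P))) := by
      rw [hci]; exact h1.symm ht
    have h3 := inE1_sub_of_cRel H hp1 hpT hpiQ h2
    have hpD : p • (T - i • (m • P)) = 0 := by rw [smul_sub, hpT, hpiQ, sub_zero]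
    obtain ⟨j, hj, hje⟩ := exists_nsmul_eq H hz hp0 hp1 hbp hP₀ hpP₀ hP₀0 h3 hpD
    exact ⟨i, j, hi, hj, by rw [← hje]; abel⟩

end Fermat.Agent.T1B.ESide46
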