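/-
Programme T1B (row 38 via S44), brick E-SIDE44 / E44-PEU (helper46): THE `uc`-RESOLVENT.

`Wab a b`, `MultRed v a b α`, `Q = (x₁, x₁ s₁)` on the `α`-branch with `v b ≤ v x₁ ^ 2 * v p`, `v b < v p ^ 2`,
`P₀ ∈ C = E[p] ∩ E₁` nonzero, `ζ` the `p`-th root of unity closest to `uc P₀` (`CStruct.IsRootOf`).  Put

  `R = ∑ k : ZMod p, ζ ^ (-k) * uc (Q + k • P₀)`.

* `val_resolvent_uc`         : `v R = v x₁ * v p`   (`Key.key` + helper9's `Roots.val_resolvent`);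
* `resolvent_uc_equivariant` : if `σ ζ = ζ ^ χ`, and `τ` is an additive map on points with `uc (τ P) = σ (uc P)`,
  `τ P₀ = χ • P₀`, `τ Q = Q + c • P₀`, then `σ R = ζ ^ c * R`   (`Roots.resolvent_equivariant`).
So `R` is a Kummer generator of the cocycle `σ ↦ ζ ^ c(σ)` whose valuation is `v x₁ * v p`; in the Frey situation
`v x₁ = v h₀ ^ 2 ∈ v p ^ ℤ`, which is (PEU) (`H1U45.exists_oneUnit_of_muP_cocycle` finishes).
-/
import Fermat.Agent.T1B.ESide46.CStruct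

set_option autoImplicit false
set_option linter.unusedSectionVars false
set_option linter.unusedVariables false

namespace Fermat.Agent.T1B.ESide46

open WeierstrassCurve WeierstrassCurve.Affine Fermat.Agent.S05 Fermat.Agent.S05.CompH3
  Fermat.Agent.T1B.ESide9

variable {K : Type*} [Field K] [DecidableEq K] {a b α : K}
variable {Γ₀ : Type*} [LinearOrderedCommGroupWithZero Γ₀] {v : Valuation K Γ₀}
variable {p : ℕ} [hp : Fact p.Prime]

section Aux

variable {G : Type*} [AddCommGroup G]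

omit hp in
lemma mod_nsmul {P₀ : G} (h : p • P₀ = 0) (n : ℕ) : (n % p) • P₀ = n • P₀ := by
  conv_rhs => rw [← Nat.div_add_mod n p, add_smul, mul_comm, mul_smul, h, smul_zero, zero_add]

lemma val_nsmul_ne_zero {P₀ : G} (h : p • P₀ = 0) (h0 : P₀ ≠ 0) {k : ZMod p} (hk : k ≠ 0) :
    k.val • P₀ ≠ 0 := by
  intro hz
  have hord : addOrderOf P₀ = p := addOrderOf_eq_prime h h0
  have hd := addOrderOf_dvd_of_nsmul_eq_zero hz
  rw [hord] at hd
  have hpos : 0 < k.val := Nat.pos_of_ne_zero (fun h => hk ((ZMod.val_eq_zero k).mp h))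
  exact absurd (Nat.le_of_dvd hpos hd) (not_le.mpr (ZMod.val_lt k))

end Aux

/-- **The valuation of the `uc`-resolvent.** -/
theorem val_resolvent_uc (H : MultRed v a b α) (hp0 : 0 < v (p : K)) (hp1 : v (p : K) < 1)
    {x₁ s₁ : K} (h₁ : (Wab a b).toAffine.Nonsingular x₁ (x₁ * s₁)) (hA : IsAlpha v b α x₁ s₁)
    (hb4 : v b ≤ v x₁ ^ 2 * v (p : K)) (hbp : v b < v (p : K) ^ 2)
    {P₀ : (Wab a b).toAffine.Point} (hP₀ : InE1 v P₀) (hpP₀ : p • P₀ = 0) (hP₀0 : P₀ ≠ 0)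
    {ζ : K} (hr : IsRootOf v b α p P₀ ζ) :
    v (∑ k : ZMod p, ζ ^ ((p - k.val) % p) * uc α (Point.some _ _ h₁ + k.val • P₀)) =
      v x₁ * v (p : K) := by
  have hζ1 : v ζ = 1 := val_eq_one_of_pow_eq_one v hp.out.ne_zero hr.1
  have hx₁pos : 0 < v x₁ := lt_of_le_of_lt zero_le hA.1
  -- `v (uc Q) = v x₁`
  have hA₁ : v (uc α (Point.some _ _ h₁)) = v x₁ := by
    have hdeep : v b < v x₁ ^ 2 := by
      refine lt_of_le_of_lt hb4 ?_
      calc v x₁ ^ 2 * v (p : K) < v x₁ ^ 2 * 1 :=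
            mul_lt_mul_of_pos_left hp1 (pow_pos hx₁pos 2)
        _ = v x₁ ^ 2 := mul_one _
    obtain ⟨x₃, s₃, h₃, -, -, -, hu, -⟩ :=
      key H hp0 hp1 h₁ hA hb4 hbp hP₀ hζ1 hr.2 1 (by rw [one_smul]; exact hP₀0)
    exact hu
  have hmain := val_resolvent v hr.1
    (fun k : ZMod p => uc α (Point.some _ _ h₁ + k.val • P₀)) (uc α (Point.some _ _ h₁)) ?_
  · rw [hmain, hA₁]
  · intro k
    rw [hA₁]
    by_cases hk : k = 0
    · subst hk
      rw [ZMod.val_zero, zero_smul, add_zero, pow_zero, mul_one, sub_self, map_zero]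
      exact mul_pos hx₁pos hp0
    · obtain ⟨x₃, s₃, h₃, e₃, -, -, -, hE⟩ :=
        key H hp0 hp1 h₁ hA hb4 hbp hP₀ hζ1 hr.2 k.val (val_nsmul_ne_zero hpP₀ hP₀0 hk)
      rw [e₃]
      exact hE

/-- **Equivariance of the `uc`-resolvent.** -/
theorem resolvent_uc_equivariant {ζ : K} (hζ : ζ ^ p = 1) (σ : K →+* K)
    (τ : (Wab a b).toAffine.Point →+ (Wab a b).toAffine.Point)
    (hτ : ∀ P, uc α (τ P) = σ (uc α P)) (χ c : ZMod p) (hχ : χ ≠ 0)
    (hσζ : σ ζ = ζ ^ χ.val) {P₀ Q : (Wab a b).toAffine.Point} (hpP₀ : p • P₀ = 0)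
    (hτP₀ : τ P₀ = χ.val • P₀) (hτQ : τ Q = Q + c.val • P₀) :
    σ (∑ k : ZMod p, ζ ^ ((p - k.val) % p) * uc α (Q + k.val • P₀)) =
      ζ ^ c.val * ∑ k : ZMod p, ζ ^ ((p - k.val) % p) * uc α (Q + k.val • P₀) := by
  refine resolvent_equivariant hζ (fun k : ZMod p => uc α (Q + k.val • P₀)) σ χ c hχ hσζ ?_
  intro k
  rw [← hτ, map_add, map_nsmul, hτQ, hτP₀, add_assoc, ← mul_smul, ← add_smul]
  congr 2
  rw [ZMod.val_add, ZMod.val_mul, mod_nsmul hpP₀, add_smul, add_smul, mod_nsmul hpP₀, mul_comm]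

end Fermat.Agent.T1B.ESide46
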